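import Mathlib
import Fermat.Prelude.Def_FLTPrelim_Modularity
import Fermat.Prelude.Def_CuspForm_IntegralStructure
import Fermat.Prelude.Def_CuspForm_HeckeAlgebra
import Fermat.Prelude.Thm_CongruenceSubgroup_one_mem_strictPeriods_Gamma0
import Fermat.Prelude.Thm_ModularFormClass_qCoeff_heckeT
import Fermat.Prelude.Thm_ModularFormClass_qCoeff_heckeU

set_option autoImplicit false

namespace Fermat.Agent.S49

open CongruenceSubgroup ModularFormClass UpperHalfPlane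

variable {N : ℕ} {k : ℤ}

theorem qCoeff_add (f g : CuspForm (Gamma0 N) k) (n : ℕ) :
    qCoeff (⇑(f + g)) n = qCoeff (⇑f) n + qCoeff (⇑g) n := by
  have h1 := CongruenceSubgroup.one_mem_strictPeriods_Gamma0 N
  unfold qCoeff
  rw [FunLike.coe_add, ModularForm.qExpansion_add one_pos h1 f g, map_add]

theorem qCoeff_smul (c : ℂ) (f : CuspForm (Gamma0 N) k) (n : ℕ) :
    qCoeff (⇑(c • f)) n = c * qCoeff (⇑f) n := by
  have h1 := CongruenceSubgroup.one_mem_strictPeriods_Gamma0 N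
  unfold qCoeff
  rw [FunLike.coe_smul, ModularForm.qExpansion_smul one_pos h1 c f]
  simp

theorem qCoeff_zsmul (m : ℤ) (f : CuspForm (Gamma0 N) k) (n : ℕ) :
    qCoeff (⇑(m • f)) n = (m : ℂ) * qCoeff (⇑f) n := by
  rw [← Int.cast_smul_eq_zsmul ℂ m f, qCoeff_smul]

theorem qCoeff_zero_fun (n : ℕ) :
    qCoeff (⇑(0 : CuspForm (Gamma0 N) k)) n = 0 := by
  unfold qCoeff
  rw [FunLike.coe_zero, qExpansion_zero]
  simp

theorem qCoeff_zero_idx (f : CuspForm (Gamma0 N) k) : qCoeff (⇑f) 0 = 0 := by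
  have h1 := CongruenceSubgroup.one_mem_strictPeriods_Gamma0 N
  exact CuspFormClass.qExpansion_coeff_zero f one_pos h1

theorem eq_zero_of_qCoeff (f : CuspForm (Gamma0 N) k) (h : ∀ n, qCoeff (⇑f) n = 0) : f = 0 := by
  have h1 := CongruenceSubgroup.one_mem_strictPeriods_Gamma0 N
  have hq : qExpansion 1 (⇑f) = 0 := by
    ext n
    simpa [qCoeff] using h n
  haveI : Fact (IsCusp OnePoint.infty (Gamma0 N : Subgroup (GL (Fin 2) ℝ))) :=
    ⟨Subgroup.isCusp_of_mem_strictPeriods one_pos h1⟩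
  have := (qExpansion_eq_zero_iff one_pos
    (SlashInvariantFormClass.periodic_comp_ofComplex f h1) (ModularFormClass.holo f)
    (ModularFormClass.bdd_at_infty f)).mp hq
  exact DFunLike.coe_injective this

theorem qCoeff_heckeTLin {p : ℕ} (hp : p.Prime) (hpN : ¬ p ∣ N) (f : CuspForm (Gamma0 N) k)
    (n : ℕ) :
    qCoeff (⇑(CuspForm.heckeTLin k hp hpN f)) n =
      ModularForm.coeffHeckeT k p (qCoeff (⇑f)) n := by
  have h1 := CongruenceSubgroup.one_mem_strictPeriods_Gamma0 N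
  rw [CuspForm.coe_heckeTLin_apply]
  exact ModularFormClass.qCoeff_heckeT f h1 hp.ne_zero n

theorem qCoeff_heckeULin [NeZero N] {p : ℕ} (hp : p.Prime) (hpN : p ∣ N)
    (f : CuspForm (Gamma0 N) k) (n : ℕ) :
    qCoeff (⇑(CuspForm.heckeULin k hpN f)) n =
      ModularForm.coeffHeckeU p (qCoeff (⇑f)) n := by
  have h1 := CongruenceSubgroup.one_mem_strictPeriods_Gamma0 N
  rw [CuspForm.coe_heckeULin_apply]
  exact ModularFormClass.qCoeff_heckeU f h1 hp.ne_zero n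

theorem intLattice_qCoeff {f : CuspForm (Gamma0 N) k} (hf : f ∈ CuspForm.intLattice N k)
    (n : ℕ) : ∃ m : ℤ, qCoeff (⇑f) n = (m : ℂ) := by
  unfold CuspForm.intLattice at hf
  induction hf using Submodule.span_induction with
  | mem x hx => exact hx n
  | zero => exact ⟨0, by rw [qCoeff_zero_fun]; simp⟩
  | add x y _ _ hx hy =>
    obtain ⟨a, ha⟩ := hx
    obtain ⟨b, hb⟩ := hy
    exact ⟨a + b, by rw [qCoeff_add, ha, hb]; push_cast; ring⟩
  | smul c x _ hx =>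
    obtain ⟨a, ha⟩ := hx
    exact ⟨c * a, by rw [qCoeff_zsmul, ha]; push_cast; ring⟩

theorem mem_intLattice_of_qCoeff {f : CuspForm (Gamma0 N) k}
    (hf : ∀ n : ℕ, ∃ m : ℤ, qCoeff (⇑f) n = (m : ℂ)) : f ∈ CuspForm.intLattice N k :=
  Submodule.subset_span hf

theorem exists_eq_three_smul {g : CuspForm (Gamma0 N) k}
    (hg : ∀ n : ℕ, ∃ m : ℤ, qCoeff (⇑g) n = ((3 * m : ℤ) : ℂ)) :
    ∃ h ∈ CuspForm.intLattice N k, g = (3 : ℤ) • h := by
  refine ⟨((3 : ℂ)⁻¹) • g, mem_intLattice_of_qCoeff ?_, ?_⟩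
  · intro n
    obtain ⟨m, hm⟩ := hg n
    refine ⟨m, ?_⟩
    rw [qCoeff_smul, hm]
    push_cast
    field_simp
  · rw [← Int.cast_smul_eq_zsmul ℂ (3 : ℤ), smul_smul]
    norm_num

end Fermat.Agent.S49
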