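import Mathlib

set_option autoImplicit false

namespace Fermat.Agent.S49

open Module

/-- A commuting family of endomorphisms of a finite-dimensional complex vector space has a common
eigenvector inside any nonzero invariant subspace. -/
theorem exists_common_eigenvector_mem {ι : Type*} {V : Type*} [AddCommGroup V] [Module ℂ V]
    [FiniteDimensional ℂ V] (f : ι → Module.End ℂ V) (hcomm : ∀ i j, Commute (f i) (f j))
    (W₀ : Submodule ℂ V) (hW₀ : W₀ ≠ ⊥) (hinv : ∀ i, ∀ v ∈ W₀, f i v ∈ W₀) :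
    ∃ w ∈ W₀, w ≠ 0 ∧ ∀ i, ∃ μ : ℂ, f i w = μ • w := by
  classical
  let 𝒲 : Set (Submodule ℂ V) := {W | W ≠ ⊥ ∧ W ≤ W₀ ∧ ∀ i, ∀ v ∈ W, f i v ∈ W}
  have h𝒲 : 𝒲.Nonempty := ⟨W₀, hW₀, le_rfl, hinv⟩
  obtain ⟨W, hW𝒲, hWmin⟩ := IsArtinian.set_has_minimal 𝒲 h𝒲
  obtain ⟨hWne, hWle, hWinv⟩ := hW𝒲
  have key : ∀ i, ∃ μ : ℂ, ∀ v ∈ W, f i v = μ • v := by
    intro i
    have : Nontrivial W := Submodule.nontrivial_iff_ne_bot.mpr hWne
    let g : Module.End ℂ W := (f i).restrict (hWinv i)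
    obtain ⟨μ, hμ⟩ := Module.End.exists_eigenvalue g
    obtain ⟨v, hv⟩ := hμ.exists_hasEigenvector
    refine ⟨μ, ?_⟩
    let E : Submodule ℂ V := W ⊓ Module.End.eigenspace (f i) μ
    have hv' : f i (v : V) = μ • (v : V) := by
      have := hv.apply_eq_smul
      have h2 := congrArg Subtype.val this
      simpa [g] using h2
    have hEne : E ≠ ⊥ := by
      intro hE
      have hvE : (v : V) ∈ E := ⟨v.2, Module.End.mem_eigenspace_iff.mpr hv'⟩
      rw [hE, Submodule.mem_bot] at hvE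
      exact hv.2 (Subtype.ext hvE)
    have hEinv : ∀ j, ∀ x ∈ E, f j x ∈ E := by
      intro j x hx
      refine ⟨hWinv j x hx.1, ?_⟩
      change f j x ∈ Module.End.eigenspace (f i) μ
      rw [Module.End.mem_eigenspace_iff]
      have hx2 := Module.End.mem_eigenspace_iff.mp hx.2
      have hc : f i (f j x) = f j (f i x) := by
        have := hcomm i j
        exact LinearMap.congr_fun this.eq x
      rw [hc, hx2, map_smul]
    have hE𝒲 : E ∈ 𝒲 := ⟨hEne, inf_le_left.trans hWle, hEinv⟩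
    have hEW : E = W := by
      have hle : E ≤ W := inf_le_left
      rcases hle.lt_or_eq with hlt | heq
      · exact absurd hlt (hWmin E hE𝒲)
      · exact heq
    intro x hx
    have : x ∈ E := hEW ▸ hx
    exact Module.End.mem_eigenspace_iff.mp this.2
  obtain ⟨w, hwW, hw0⟩ := Submodule.exists_mem_ne_zero_of_ne_bot hWne
  exact ⟨w, hWle hwW, hw0, fun i => (key i).imp fun μ hμ => hμ w hwW⟩


/-- Given a commutative ring acting on a finite-dimensional complex vector space and a prime ideal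
`𝔪` all of whose non-members act nontrivially, there is a common eigenvector whose eigencharacter
does not vanish outside `𝔪`. -/
theorem exists_eigenchar {T : Type*} [CommRing T] {V : Type*} [AddCommGroup V] [Module ℂ V]
    [FiniteDimensional ℂ V] (ρ : T →+* Module.End ℂ V) (𝔪 : Ideal T) [h𝔪p : 𝔪.IsPrime]
    (h𝔪 : ∀ s, s ∉ 𝔪 → ρ s ≠ 0) :
    ∃ (w : V) (θ : T →+* ℂ), w ≠ 0 ∧ (∀ t, ρ t w = θ t • w) ∧ ∀ s, s ∉ 𝔪 → θ s ≠ 0 := by
  classical
  let 𝒮 : Set (Submodule ℂ V) := {W | ∃ s, s ∉ 𝔪 ∧ W = LinearMap.range (ρ s)}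
  have h𝒮 : 𝒮.Nonempty := ⟨_, 1, (Ideal.ne_top_iff_one 𝔪).mp h𝔪p.ne_top, rfl⟩
  obtain ⟨W₀, ⟨s₀, hs₀, rfl⟩, hmin⟩ := IsArtinian.set_has_minimal 𝒮 h𝒮
  have hcomm : ∀ t t', Commute (ρ t) (ρ t') := fun t t' => by
    rw [Commute, SemiconjBy, ← map_mul, ← map_mul, mul_comm]
  have hW₀ne : LinearMap.range (ρ s₀) ≠ ⊥ := by
    intro h
    exact h𝔪 s₀ hs₀ (LinearMap.range_eq_bot.mp h)
  have hW₀inv : ∀ t, ∀ v ∈ LinearMap.range (ρ s₀), ρ t v ∈ LinearMap.range (ρ s₀) := by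
    rintro t _ ⟨u, rfl⟩
    refine ⟨ρ t u, ?_⟩
    rw [← Module.End.mul_apply, ← Module.End.mul_apply, (hcomm s₀ t).eq]
  have hsurj : ∀ s, s ∉ 𝔪 → ∀ y ∈ LinearMap.range (ρ s₀),
      ∃ x ∈ LinearMap.range (ρ s₀), ρ s x = y := by
    intro s hs y hy
    have hss : s₀ * s ∉ 𝔪 := fun h => (h𝔪p.mem_or_mem h).elim hs₀ hs
    have hle : LinearMap.range (ρ (s₀ * s)) ≤ LinearMap.range (ρ s₀) := by
      rintro _ ⟨u, rfl⟩
      exact ⟨ρ s u, by rw [map_mul]; rfl⟩
    have heq : LinearMap.range (ρ (s₀ * s)) = LinearMap.range (ρ s₀) := by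
      rcases hle.lt_or_eq with hlt | heq
      · exact absurd hlt (hmin _ ⟨s₀ * s, hss, rfl⟩)
      · exact heq
    rw [← heq] at hy
    obtain ⟨u, rfl⟩ := hy
    refine ⟨ρ s₀ u, ⟨u, rfl⟩, ?_⟩
    rw [map_mul, ← Module.End.mul_apply, (hcomm s₀ s).eq]
  obtain ⟨w, hwW, hw0, hw⟩ := exists_common_eigenvector_mem ρ hcomm _ hW₀ne hW₀inv
  choose θ hθ using hw
  have hsmul_inj : ∀ c d : ℂ, c • w = d • w → c = d := fun c d h => by
    by_contra hne
    have : (c - d) • w = 0 := by rw [sub_smul, h, sub_self]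
    rcases smul_eq_zero.mp this with h1 | h1
    · exact hne (sub_eq_zero.mp h1)
    · exact hw0 h1
  let θ' : T →+* ℂ :=
    { toFun := θ
      map_one' := hsmul_inj _ _ (by rw [← hθ, map_one, one_smul]; rfl)
      map_mul' := fun x y => hsmul_inj _ _ (by
        rw [← hθ, map_mul, Module.End.mul_apply, hθ y, map_smul, hθ x, smul_smul, mul_comm])
      map_zero' := hsmul_inj _ _ (by rw [← hθ, map_zero, zero_smul]; rfl)
      map_add' := fun x y => hsmul_inj _ _ (by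
        rw [← hθ, map_add, LinearMap.add_apply, hθ, hθ, add_smul]) }
  refine ⟨w, θ', hw0, hθ, ?_⟩
  intro s hs h0
  let g : Module.End ℂ (LinearMap.range (ρ s₀)) := (ρ s).restrict (hW₀inv s)
  have hgsurj : Function.Surjective g := by
    rintro ⟨y, hy⟩
    obtain ⟨x, hx, hxy⟩ := hsurj s hs y hy
    exact ⟨⟨x, hx⟩, Subtype.ext hxy⟩
  have hginj : Function.Injective g := LinearMap.injective_iff_surjective.mpr hgsurj
  have hgw : g ⟨w, hwW⟩ = 0 := by
    apply Subtype.ext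
    change ρ s w = 0
    rw [hθ]
    change θ' s • w = 0
    rw [h0, zero_smul]
  have : (⟨w, hwW⟩ : LinearMap.range (ρ s₀)) = 0 := hginj (by rw [hgw, map_zero])
  exact hw0 (congrArg Subtype.val this)

end Fermat.Agent.S49
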