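import Mathlib

set_option autoImplicit false

namespace Fermat.Agent.S49

open Module

section CommonEigenvector

variable {K V : Type*} [Field K] [IsAlgClosed K] [AddCommGroup V] [Module K V]
  [FiniteDimensional K V]

/-- A commuting family of endomorphisms has a common eigenvector in any nonzero stable subspace. -/
theorem exists_common_eigenvector {ι : Type*} (T : ι → Module.End K V)
    (hcomm : ∀ i j, Commute (T i) (T j)) :
    ∀ (n : ℕ) (W : Submodule K V), finrank K W = n → W ≠ ⊥ →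
      (∀ i, ∀ x ∈ W, T i x ∈ W) →
      ∃ v ∈ W, v ≠ 0 ∧ ∃ θ : ι → K, ∀ i, T i v = θ i • v := by
  intro n
  induction n using Nat.strong_induction_on with
  | _ n ih =>
    intro W hn hW hWT
    by_cases hsc : ∀ i, ∃ μ : K, ∀ x ∈ W, T i x = μ • x
    · obtain ⟨v, hvW, hv0⟩ := (Submodule.ne_bot_iff W).mp hW
      choose θ hθ using hsc
      exact ⟨v, hvW, hv0, θ, fun i => hθ i v hvW⟩
    · push Not at hsc
      obtain ⟨i, hi⟩ := hsc
      -- restrict `T i` to `W` and pick an eigenvalue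
      have hmaps : ∀ x ∈ W, T i x ∈ W := hWT i
      let Ti : Module.End K W := (T i).restrict hmaps
      have : Nontrivial W := (Submodule.nontrivial_iff_ne_bot).mpr hW
      obtain ⟨μ, hμ⟩ := Module.End.exists_eigenvalue Ti
      obtain ⟨w, hw⟩ := hμ.exists_hasEigenvector
      -- the eigenspace inside `W`
      let W' : Submodule K V := W ⊓ LinearMap.ker (T i - μ • (1 : Module.End K V))
      have hw' : (w : V) ∈ W' := by
        refine ⟨w.2, ?_⟩
        have h1 : Ti w = μ • w := hw.apply_eq_smul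
        have h2 : T i (w : V) = μ • (w : V) := by
          have := congrArg (Subtype.val) h1
          simpa [Ti] using this
        simp [LinearMap.mem_ker, h2]
      have hw0 : (w : V) ≠ 0 := by
        intro h
        exact hw.2 (Subtype.ext h)
      have hW'ne : W' ≠ ⊥ := fun h => hw0 (by simpa [h] using hw')
      have hW'le : W' ≤ W := inf_le_left
      have hW'lt : W' < W := by
        refine lt_of_le_of_ne hW'le ?_
        intro heq
        obtain ⟨x, hxW, hx⟩ := hi μ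
        apply hx
        have : x ∈ W' := heq ▸ hxW
        have := this.2
        simpa [LinearMap.mem_ker, sub_eq_zero] using this
      have hfin : finrank K W' < n := hn ▸ Submodule.finrank_lt_finrank_of_lt hW'lt
      have hW'T : ∀ j, ∀ x ∈ W', T j x ∈ W' := by
        intro j x hx
        refine ⟨hWT j x hx.1, ?_⟩
        have h2 : T i x = μ • x := by
          have := hx.2
          simpa [LinearMap.mem_ker, sub_eq_zero] using this
        have hc : T i (T j x) = T j (T i x) := by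
          have := (hcomm i j).eq
          exact LinearMap.congr_fun this x
        simp [LinearMap.mem_ker, hc, h2]
      obtain ⟨v, hv, hv0, θ, hθ⟩ := ih _ hfin W' rfl hW'ne hW'T
      exact ⟨v, hW'le hv, hv0, θ, hθ⟩

end CommonEigenvector

section Lift

open scoped IsMulCommutative

variable {V : Type*} [AddCommGroup V] [Module ℂ V]

/-- `3 • L` as a `ℤ`-submodule. -/
def threeL (L : Submodule ℤ V) : Submodule ℤ V := L.map (LinearMap.lsmul ℤ V 3)

theorem mem_threeL {L : Submodule ℤ V} {x : V} :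
    x ∈ threeL L ↔ ∃ g ∈ L, x = (3 : ℂ) • g := by
  unfold threeL
  rw [Submodule.mem_map]
  constructor
  · rintro ⟨g, hg, rfl⟩
    refine ⟨g, hg, ?_⟩
    rw [LinearMap.lsmul_apply, ← Int.cast_smul_eq_zsmul ℂ]
    norm_num
  · rintro ⟨g, hg, rfl⟩
    refine ⟨g, hg, ?_⟩
    rw [LinearMap.lsmul_apply, ← Int.cast_smul_eq_zsmul ℂ]
    norm_num

theorem intCast_smul_mem {L : Submodule ℤ V} (c : ℤ) {x : V} (hx : x ∈ L) : (c : ℂ) • x ∈ L := by
  rw [Int.cast_smul_eq_zsmul]
  exact L.smul_mem c hx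

theorem algebraMap_int_end_apply (r : ℤ) (x : V) :
    (algebraMap ℤ (Module.End ℂ V) r) x = (r : ℂ) • x := by
  rw [Int.cast_smul_eq_zsmul]
  simp

variable {ι : Type*} (T : ι → Module.End ℂ V)

theorem adjoin_maps_L (L : Submodule ℤ V) (hLT : ∀ i, ∀ x ∈ L, T i x ∈ L) :
    ∀ t ∈ Algebra.adjoin ℤ (Set.range T), ∀ x ∈ L, t x ∈ L := by
  intro t ht
  induction ht using Algebra.adjoin_induction with
  | mem t ht =>
    obtain ⟨i, rfl⟩ := ht
    exact hLT i
  | algebraMap r =>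
    intro x hx
    rw [algebraMap_int_end_apply]
    exact intCast_smul_mem r hx
  | add s t _ _ hs ht =>
    intro x hx
    rw [LinearMap.add_apply]
    exact L.add_mem (hs x hx) (ht x hx)
  | mul s t _ _ hs ht =>
    intro x hx
    rw [Module.End.mul_apply]
    exact hs _ (ht x hx)

theorem adjoin_maps_threeL (L : Submodule ℤ V) (hLT : ∀ i, ∀ x ∈ L, T i x ∈ L) :
    ∀ t ∈ Algebra.adjoin ℤ (Set.range T), ∀ x ∈ threeL L, t x ∈ threeL L := by
  intro t ht x hx
  obtain ⟨g, hg, rfl⟩ := mem_threeL.mp hx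
  exact mem_threeL.mpr ⟨t g, adjoin_maps_L T L hLT t ht g hg, by rw [map_smul]⟩

theorem intCast_smul_mem_threeL {L : Submodule ℤ V} (c : ℤ) {x : V} (hx : x ∈ threeL L) :
    (c : ℂ) • x ∈ threeL L := intCast_smul_mem c hx

/-- Every element of the adjoined algebra acts on `f₀` as an integer modulo `3L`. -/
theorem adjoin_exists_int (L : Submodule ℤ V) (hLT : ∀ i, ∀ x ∈ L, T i x ∈ L)
    (f₀ : V) (χ : ι → ℤ) (hχ : ∀ i, T i f₀ - (χ i : ℂ) • f₀ ∈ threeL L) :
    ∀ t ∈ Algebra.adjoin ℤ (Set.range T), ∃ c : ℤ, t f₀ - (c : ℂ) • f₀ ∈ threeL L := by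
  intro t ht
  induction ht using Algebra.adjoin_induction with
  | mem t ht =>
    obtain ⟨i, rfl⟩ := ht
    exact ⟨χ i, hχ i⟩
  | algebraMap r =>
    refine ⟨r, ?_⟩
    rw [algebraMap_int_end_apply, sub_self]
    exact Submodule.zero_mem _
  | add s t _ _ hs ht =>
    obtain ⟨c₁, h₁⟩ := hs
    obtain ⟨c₂, h₂⟩ := ht
    refine ⟨c₁ + c₂, ?_⟩
    have : (s + t) f₀ - ((c₁ + c₂ : ℤ) : ℂ) • f₀ =
        (s f₀ - (c₁ : ℂ) • f₀) + (t f₀ - (c₂ : ℂ) • f₀) := by
      rw [LinearMap.add_apply]; push_cast; module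
    rw [this]
    exact Submodule.add_mem _ h₁ h₂
  | mul s t hs' _ hs ht =>
    obtain ⟨c₁, h₁⟩ := hs
    obtain ⟨c₂, h₂⟩ := ht
    refine ⟨c₁ * c₂, ?_⟩
    have : (s * t) f₀ - ((c₁ * c₂ : ℤ) : ℂ) • f₀ =
        s (t f₀ - (c₂ : ℂ) • f₀) + (c₂ : ℂ) • (s f₀ - (c₁ : ℂ) • f₀) := by
      rw [Module.End.mul_apply, map_sub, map_smul]; push_cast; module
    rw [this]
    exact Submodule.add_mem _ (adjoin_maps_threeL T L hLT s hs' _ h₂)
      (intCast_smul_mem_threeL c₂ h₁)

/-- If `3 ∤ c` and `c • f₀ ∈ 3L` with `f₀ ∈ L`, then `f₀ ∈ 3L`. -/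
theorem mem_threeL_of_intCast_smul_mem {L : Submodule ℤ V} {f₀ : V} (hf₀ : f₀ ∈ L) {c : ℤ}
    (hc : ¬ (3 : ℤ) ∣ c) (h : (c : ℂ) • f₀ ∈ threeL L) : f₀ ∈ threeL L := by
  have hcop : IsCoprime c 3 := by
    have h3 : Prime (3 : ℤ) := Int.prime_three
    exact (h3.coprime_iff_not_dvd.mpr hc).symm
  obtain ⟨u, w, huw⟩ := hcop
  have h1 : f₀ = (u : ℂ) • ((c : ℂ) • f₀) + (3 : ℂ) • ((w : ℂ) • f₀) := by
    have : ((u * c + w * 3 : ℤ) : ℂ) = 1 := by rw [huw]; simp
    push_cast at this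
    calc f₀ = (1 : ℂ) • f₀ := (one_smul _ _).symm
      _ = ((u : ℂ) * c + w * 3) • f₀ := by rw [this]
      _ = _ := by module
  rw [h1]
  exact Submodule.add_mem _ (intCast_smul_mem_threeL u h)
    (mem_threeL.mpr ⟨_, intCast_smul_mem w hf₀, rfl⟩)

theorem mem_threeL_iff_dvd {L : Submodule ℤ V} {f₀ : V} (hf₀ : f₀ ∈ L) (hf₀3 : f₀ ∉ threeL L)
    {x : V} {c : ℤ} (h : x - (c : ℂ) • f₀ ∈ threeL L) : x ∈ threeL L ↔ (3 : ℤ) ∣ c := by
  constructor
  · intro hx
    by_contra hc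
    apply hf₀3
    apply mem_threeL_of_intCast_smul_mem hf₀ hc
    have : (c : ℂ) • f₀ = x - (x - (c : ℂ) • f₀) := by abel
    rw [this]
    exact Submodule.sub_mem _ hx h
  · rintro ⟨k, rfl⟩
    have : x = (x - ((3 * k : ℤ) : ℂ) • f₀) + (3 : ℂ) • ((k : ℂ) • f₀) := by
      push_cast; module
    rw [this]
    exact Submodule.add_mem _ h (mem_threeL.mpr ⟨_, intCast_smul_mem k hf₀, rfl⟩)

/-- The set of elements of the adjoined algebra not killing `f₀` modulo `3L` is multiplicative. -/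
theorem mul_apply_not_mem_threeL (L : Submodule ℤ V) (hLT : ∀ i, ∀ x ∈ L, T i x ∈ L)
    (f₀ : V) (hf₀ : f₀ ∈ L) (hf₀3 : f₀ ∉ threeL L)
    (χ : ι → ℤ) (hχ : ∀ i, T i f₀ - (χ i : ℂ) • f₀ ∈ threeL L)
    {s t : Module.End ℂ V} (hs : s ∈ Algebra.adjoin ℤ (Set.range T))
    (ht : t ∈ Algebra.adjoin ℤ (Set.range T))
    (hs3 : s f₀ ∉ threeL L) (ht3 : t f₀ ∉ threeL L) : (t * s) f₀ ∉ threeL L := by
  obtain ⟨c₁, h₁⟩ := adjoin_exists_int T L hLT f₀ χ hχ s hs
  obtain ⟨c₂, h₂⟩ := adjoin_exists_int T L hLT f₀ χ hχ t ht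
  have hc₁ : ¬ (3 : ℤ) ∣ c₁ := fun h => hs3 ((mem_threeL_iff_dvd hf₀ hf₀3 h₁).mpr h)
  have hc₂ : ¬ (3 : ℤ) ∣ c₂ := fun h => ht3 ((mem_threeL_iff_dvd hf₀ hf₀3 h₂).mpr h)
  have h12 : (t * s) f₀ - ((c₂ * c₁ : ℤ) : ℂ) • f₀ ∈ threeL L := by
    have : (t * s) f₀ - ((c₂ * c₁ : ℤ) : ℂ) • f₀ =
        t (s f₀ - (c₁ : ℂ) • f₀) + (c₁ : ℂ) • (t f₀ - (c₂ : ℂ) • f₀) := by
      rw [Module.End.mul_apply, map_sub, map_smul]; push_cast; module
    rw [this]
    exact Submodule.add_mem _ (adjoin_maps_threeL T L hLT t ht _ h₁)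
      (intCast_smul_mem_threeL c₁ h₂)
  intro hmem
  have := (mem_threeL_iff_dvd hf₀ hf₀3 h12).mp hmem
  rcases (Int.prime_three.dvd_mul).mp this with h | h
  · exact hc₂ h
  · exact hc₁ h

/-- The `ℤ`-subalgebra of endomorphisms preserving the lattice `L`. -/
def stab (L : Submodule ℤ V) : Subalgebra ℤ (Module.End ℂ V) where
  carrier := {t | ∀ x ∈ L, t x ∈ L}
  mul_mem' := by
    intro s t hs ht x hx
    rw [Module.End.mul_apply]
    exact hs _ (ht x hx)
  add_mem' := by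
    intro s t hs ht x hx
    rw [LinearMap.add_apply]
    exact L.add_mem (hs x hx) (ht x hx)
  algebraMap_mem' := by
    intro r x hx
    rw [algebraMap_int_end_apply]
    exact intCast_smul_mem r hx

/-- Restriction to the lattice, as a `ℤ`-algebra homomorphism. -/
def res (L : Submodule ℤ V) : stab L →ₐ[ℤ] Module.End ℤ L where
  toFun t := ((t : Module.End ℂ V).restrictScalars ℤ).restrict t.2
  map_one' := by ext x; rfl
  map_mul' := by intro s t; ext x; rfl
  map_zero' := by ext x; rfl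
  map_add' := by intro s t; ext x; rfl
  commutes' := by
    intro r
    ext x
    change ((algebraMap ℤ (Module.End ℂ V) r) (x : V)) = ((algebraMap ℤ (Module.End ℤ L) r) x : V)
    rw [algebraMap_int_end_apply, Int.cast_smul_eq_zsmul]
    simp

theorem res_injective (L : Submodule ℤ V) (hLspan : Submodule.span ℂ (L : Set V) = ⊤) :
    Function.Injective (res L) := by
  rw [injective_iff_map_eq_zero]
  intro t ht
  apply Subtype.ext
  apply LinearMap.ext_on hLspan
  intro x hx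
  have := congrArg (fun f : Module.End ℤ L => ((f ⟨x, hx⟩ : L) : V)) ht
  exact this

theorem isIntegral_of_mem_stab (L : Submodule ℤ V) (hLfg : L.FG)
    (hLspan : Submodule.span ℂ (L : Set V) = ⊤) {t : Module.End ℂ V} (ht : t ∈ stab L) :
    IsIntegral ℤ t := by
  have : Module.Finite ℤ L := Module.Finite.iff_fg.mpr hLfg
  have h1 : IsIntegral ℤ (res L ⟨t, ht⟩) := Algebra.IsIntegral.isIntegral _
  have h2 : IsIntegral ℤ (⟨t, ht⟩ : stab L) :=
    (isIntegral_algHom_iff (res L) (res_injective L hLspan)).mp h1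
  exact h2.map (stab L).val

/-- Elements of the adjoined algebra act on a common eigenvector by scalars. -/
theorem adjoin_eigen {v : V} {θ : ι → ℂ} (hθ : ∀ i, T i v = θ i • v) :
    ∀ t ∈ Algebra.adjoin ℤ (Set.range T), ∃ μ : ℂ, t v = μ • v := by
  intro t ht
  induction ht using Algebra.adjoin_induction with
  | mem t ht =>
    obtain ⟨i, rfl⟩ := ht
    exact ⟨θ i, hθ i⟩
  | algebraMap r => exact ⟨r, algebraMap_int_end_apply r v⟩
  | add s t _ _ hs ht =>
    obtain ⟨a, ha⟩ := hs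
    obtain ⟨b, hb⟩ := ht
    exact ⟨a + b, by rw [LinearMap.add_apply, ha, hb, add_smul]⟩
  | mul s t _ _ hs ht =>
    obtain ⟨a, ha⟩ := hs
    obtain ⟨b, hb⟩ := ht
    exact ⟨a * b, by rw [Module.End.mul_apply, hb, map_smul, ha, smul_smul, mul_comm]⟩

theorem finrank_range_mul_lt [FiniteDimensional ℂ V] {s t : Module.End ℂ V}
    {v : V} (hv : v ∈ LinearMap.range s) (hv0 : v ≠ 0) (htv : t v = 0) :
    finrank ℂ (LinearMap.range (t * s)) < finrank ℂ (LinearMap.range s) := by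
  set W := LinearMap.range s
  have hrange : LinearMap.range (t * s) = LinearMap.range (t.domRestrict W) := by
    rw [LinearMap.range_domRestrict]
    ext x
    simp only [LinearMap.mem_range, Module.End.mul_apply, Submodule.mem_map]
    constructor
    · rintro ⟨y, rfl⟩; exact ⟨s y, ⟨y, rfl⟩, rfl⟩
    · rintro ⟨_, ⟨y, rfl⟩, rfl⟩; exact ⟨y, rfl⟩
  rw [hrange]
  have hrn := LinearMap.finrank_range_add_finrank_ker (t.domRestrict W)
  have hker : 0 < finrank ℂ (LinearMap.ker (t.domRestrict W)) := by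
    rw [Module.finrank_pos_iff_exists_ne_zero]
    refine ⟨⟨⟨v, hv⟩, ?_⟩, ?_⟩
    · simp [LinearMap.mem_ker, htv]
    · intro h
      apply hv0
      have := congrArg (fun x : LinearMap.ker (t.domRestrict W) => ((x : W) : V)) h
      simpa using this
  omega

/-- **Deligne–Serre lifting lemma** (abstract form, at the prime `3`).  A commuting family of
endomorphisms of a finite-dimensional complex vector space preserving a spanning finitely
generated lattice `L`, with a mod-`3` eigenvector `f₀ ∈ L ∖ 3L` of integer eigenvalues `χ i`,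
has a genuine common eigenvector whose eigenvalues are algebraic integers congruent to `χ i`
modulo a maximal ideal above `3`. -/
theorem exists_eigenvector_lift [FiniteDimensional ℂ V] (hcomm : ∀ i j, Commute (T i) (T j))
    (L : Submodule ℤ V) (hLfg : L.FG) (hLspan : Submodule.span ℂ (L : Set V) = ⊤)
    (hLT : ∀ i, ∀ x ∈ L, T i x ∈ L) (f₀ : V) (hf₀ : f₀ ∈ L) (hf₀3 : f₀ ∉ threeL L)
    (χ : ι → ℤ) (hχ : ∀ i, T i f₀ - (χ i : ℂ) • f₀ ∈ threeL L) :
    ∃ (v : V) (θ : ι → ℂ) (𝔪 : Ideal (integralClosure ℤ ℂ)), v ≠ 0 ∧ (∀ i, T i v = θ i • v) ∧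
      𝔪.IsMaximal ∧ ((3 : ℕ) : integralClosure ℤ ℂ) ∈ 𝔪 ∧
      ∀ i, ∃ c : integralClosure ℤ ℂ, (c : ℂ) = θ i ∧ c - (χ i : integralClosure ℤ ℂ) ∈ 𝔪 := by
  classical
  set 𝕋 : Subalgebra ℤ (Module.End ℂ V) := Algebra.adjoin ℤ (Set.range T) with h𝕋
  have hcomm' : ∀ a ∈ Set.range T, ∀ b ∈ Set.range T, a * b = b * a := by
    rintro _ ⟨i, rfl⟩ _ ⟨j, rfl⟩
    exact (hcomm i j).eq
  have : IsMulCommutative 𝕋 := Algebra.isMulCommutative_adjoin ℤ hcomm'
  have hT𝕋 : ∀ i, T i ∈ 𝕋 := fun i => Algebra.subset_adjoin ⟨i, rfl⟩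
  -- Step A: choose `s` with minimal rank among those not killing `f₀` mod `3L`.
  have hne : ∃ n, ∃ s ∈ 𝕋, s f₀ ∉ threeL L ∧ finrank ℂ (LinearMap.range s) = n :=
    ⟨_, 1, one_mem _, by simpa using hf₀3, rfl⟩
  obtain ⟨s, hs𝕋, hs3, hsn⟩ := Nat.find_spec hne
  have hmin : ∀ s' ∈ 𝕋, s' f₀ ∉ threeL L →
      finrank ℂ (LinearMap.range s) ≤ finrank ℂ (LinearMap.range s') := by
    intro s' hs' hs'3
    rw [hsn]
    exact Nat.find_min' hne ⟨s', hs', hs'3, rfl⟩
  -- Step B: `W = range s` is nonzero and stable.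
  have hWne : LinearMap.range s ≠ ⊥ := by
    intro h
    apply hs3
    have : s f₀ ∈ LinearMap.range s := LinearMap.mem_range_self s f₀
    rw [h, Submodule.mem_bot] at this
    rw [this]
    exact Submodule.zero_mem _
  have hcomm𝕋 : ∀ a ∈ 𝕋, ∀ b ∈ 𝕋, a * b = b * a := by
    intro a ha b hb
    have := mul_comm (⟨a, ha⟩ : 𝕋) ⟨b, hb⟩
    exact congrArg Subtype.val this
  have hWT : ∀ i, ∀ x ∈ LinearMap.range s, T i x ∈ LinearMap.range s := by
    rintro i _ ⟨y, rfl⟩
    refine ⟨T i y, ?_⟩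
    have := hcomm𝕋 (T i) (hT𝕋 i) s hs𝕋
    exact (LinearMap.congr_fun this y).symm
  -- Step C: common eigenvector.
  obtain ⟨v, hvW, hv0, θ, hθ⟩ := exists_common_eigenvector T hcomm _ _ rfl hWne hWT
  -- Step D: the eigencharacter on `𝕋`.
  have hD : ∀ t : 𝕋, ∃ μ : ℂ, (t : Module.End ℂ V) v = μ • v :=
    fun t => adjoin_eigen T hθ t.1 t.2
  choose θ' hθ' using hD
  have hinj : Function.Injective (fun μ : ℂ => μ • v) := smul_left_injective ℂ hv0
  let θR : 𝕋 →+* ℂ :=
    { toFun := θ'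
      map_one' := hinj (by
        show θ' 1 • v = (1 : ℂ) • v
        rw [← hθ' 1, one_smul]; rfl)
      map_mul' := fun a b => hinj (by
        show θ' (a * b) • v = (θ' a * θ' b) • v
        rw [← hθ' (a * b)]
        show (a : Module.End ℂ V) ((b : Module.End ℂ V) v) = _
        rw [hθ' b, map_smul, hθ' a, smul_smul, mul_comm])
      map_zero' := hinj (by
        show θ' 0 • v = (0 : ℂ) • v
        rw [← hθ' 0, zero_smul]; rfl)
      map_add' := fun a b => hinj (by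
        show θ' (a + b) • v = (θ' a + θ' b) • v
        rw [← hθ' (a + b), add_smul, ← hθ' a, ← hθ' b]; rfl) }
  have hθR : ∀ t : 𝕋, (t : Module.End ℂ V) v = θR t • v := hθ'
  -- Step E: the kernel of the eigencharacter kills `f₀` modulo `3L`.
  have hE : ∀ t : 𝕋, θR t = 0 → (t : Module.End ℂ V) f₀ ∈ threeL L := by
    intro t ht
    by_contra ht3
    have htv : (t : Module.End ℂ V) v = 0 := by rw [hθR t, ht, zero_smul]
    have h1 : ((t : Module.End ℂ V) * s) f₀ ∉ threeL L :=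
      mul_apply_not_mem_threeL T L hLT f₀ hf₀ hf₀3 χ hχ hs𝕋 t.2 hs3 ht3
    have h2 := hmin _ (mul_mem t.2 hs𝕋) h1
    have h3 := finrank_range_mul_lt (s := s) (t := (t : Module.End ℂ V)) hvW hv0 htv
    omega
  -- Step F: integrality of the eigenvalues.
  have h𝕋stab : 𝕋 ≤ stab L := by
    intro t ht
    exact adjoin_maps_L T L hLT t ht
  have hint : ∀ t : 𝕋, IsIntegral ℤ (θR t) := by
    intro t
    have h1 : IsIntegral ℤ (t : Module.End ℂ V) :=
      isIntegral_of_mem_stab L hLfg hLspan (h𝕋stab t.2)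
    have h2 : IsIntegral ℤ t := (isIntegral_algHom_iff 𝕋.val Subtype.val_injective).mp h1
    exact h2.map θR.toIntAlgHom
  -- Step G: corestrict to the ring of algebraic integers.
  let θI : 𝕋 →ₐ[ℤ] integralClosure ℤ ℂ :=
    AlgHom.codRestrict θR.toIntAlgHom (integralClosure ℤ ℂ) (fun t => hint t)
  have hθI : ∀ t : 𝕋, ((θI t : integralClosure ℤ ℂ) : ℂ) = θR t := fun t => rfl
  -- Step H: the ideal `𝔫` of elements killing `f₀` modulo `3L`.
  let 𝔫 : Ideal 𝕋 :=
    { carrier := {t | (t : Module.End ℂ V) f₀ ∈ threeL L}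
      add_mem' := by
        intro a b ha hb
        show ((a + b : 𝕋) : Module.End ℂ V) f₀ ∈ threeL L
        have : ((a + b : 𝕋) : Module.End ℂ V) f₀ =
          (a : Module.End ℂ V) f₀ + (b : Module.End ℂ V) f₀ := rfl
        rw [this]
        exact Submodule.add_mem _ ha hb
      zero_mem' := by
        show ((0 : 𝕋) : Module.End ℂ V) f₀ ∈ threeL L
        have : ((0 : 𝕋) : Module.End ℂ V) f₀ = 0 := rfl
        rw [this]
        exact Submodule.zero_mem _
      smul_mem' := by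
        intro c a ha
        show ((c * a : 𝕋) : Module.End ℂ V) f₀ ∈ threeL L
        have : ((c * a : 𝕋) : Module.End ℂ V) f₀ =
          (c : Module.End ℂ V) ((a : Module.End ℂ V) f₀) := rfl
        rw [this]
        exact adjoin_maps_threeL T L hLT c c.2 _ ha }
  have h𝔫mem : ∀ t : 𝕋, t ∈ 𝔫 ↔ (t : Module.End ℂ V) f₀ ∈ threeL L := fun t => Iff.rfl
  have h𝔫ne : 𝔫 ≠ ⊤ := by
    intro h
    have : (1 : 𝕋) ∈ 𝔫 := h ▸ Submodule.mem_top
    rw [h𝔫mem] at this
    exact hf₀3 (by simpa using this)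
  have hker : RingHom.ker (θI : 𝕋 →+* integralClosure ℤ ℂ) ≤ 𝔫 := by
    intro t ht
    rw [RingHom.mem_ker] at ht
    rw [h𝔫mem]
    apply hE
    have := congrArg (fun c : integralClosure ℤ ℂ => (c : ℂ)) ht
    simpa [hθI] using this
  have hθIint : (θI : 𝕋 →+* integralClosure ℤ ℂ).IsIntegral := by
    apply RingHom.IsIntegral.tower_top (Int.castRingHom 𝕋)
    have : ((θI : 𝕋 →+* integralClosure ℤ ℂ).comp (Int.castRingHom 𝕋)) =
        algebraMap ℤ (integralClosure ℤ ℂ) := RingHom.ext_int _ _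
    rw [this]
    exact algebraMap_isIntegral_iff.mpr inferInstance
  have hmap : 𝔫.map (θI : 𝕋 →+* integralClosure ℤ ℂ) ≠ ⊤ := by
    rw [Ne, Ideal.map_eq_top_iff_of_ker_le _ hker hθIint]
    exact h𝔫ne
  obtain ⟨𝔪, h𝔪max, h𝔪le⟩ := Ideal.exists_le_maximal _ hmap
  have hmem𝔪 : ∀ t ∈ 𝔫, θI t ∈ 𝔪 := fun t ht => h𝔪le (Ideal.mem_map_of_mem _ ht)
  -- Step I: conclusion.
  refine ⟨v, θ, 𝔪, hv0, hθ, h𝔪max, ?_, ?_⟩
  · have h3 : (algebraMap ℤ 𝕋 3) ∈ 𝔫 := by
      rw [h𝔫mem]
      have : ((algebraMap ℤ 𝕋 3 : 𝕋) : Module.End ℂ V) f₀ = (3 : ℂ) • f₀ := by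
        rw [Subalgebra.coe_algebraMap, algebraMap_int_end_apply]; norm_num
      rw [this]
      exact mem_threeL.mpr ⟨f₀, hf₀, rfl⟩
    have := hmem𝔪 _ h3
    rw [AlgHom.commutes] at this
    simpa using this
  · intro i
    let ti : 𝕋 := ⟨T i, hT𝕋 i⟩
    refine ⟨θI ti, ?_, ?_⟩
    · rw [hθI]
      apply hinj
      show θR ti • v = θ i • v
      rw [← hθR ti, ← hθ i]
    · have hmem : ti - algebraMap ℤ 𝕋 (χ i) ∈ 𝔫 := by
        rw [h𝔫mem]
        have : ((ti - algebraMap ℤ 𝕋 (χ i) : 𝕋) : Module.End ℂ V) f₀ =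
            T i f₀ - (χ i : ℂ) • f₀ := by
          rw [Subalgebra.coe_sub, LinearMap.sub_apply, Subalgebra.coe_algebraMap,
            algebraMap_int_end_apply]
        rw [this]
        exact hχ i
      have := hmem𝔪 _ hmem
      rw [map_sub, AlgHom.commutes] at this
      simpa using this

end Lift

end Fermat.Agent.S49
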