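import Mathlib
import Fermat.Agent.S49.LinAlg

set_option autoImplicit false

namespace Fermat.Agent.S49

open Module

theorem finiteDimensional_of_lattice {V : Type*} [AddCommGroup V] [Module ℂ V]
    (L : Submodule ℤ V) (hLfg : L.FG) (hLspan : Submodule.span ℂ (L : Set V) = ⊤) :
    FiniteDimensional ℂ V := by
  obtain ⟨S, hS⟩ := hLfg
  have h1 : Submodule.span ℂ (S : Set V) = ⊤ := by
    rw [← hLspan, ← hS]
    exact (Submodule.span_span_of_tower ℤ ℂ (S : Set V)).symm
  exact Module.finite_def.mpr ⟨S, h1⟩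

/-- An eigenvalue of an endomorphism preserving a finitely generated spanning lattice is an
algebraic integer. -/
theorem isIntegral_eigenvalue {V : Type*} [AddCommGroup V] [Module ℂ V] [FiniteDimensional ℂ V]
    (L : Submodule ℤ V) (hLfg : L.FG) (hLspan : Submodule.span ℂ (L : Set V) = ⊤)
    (φ : Module.End ℂ V) (hφL : ∀ x ∈ L, φ x ∈ L) (w : V) (hw : w ≠ 0) (μ : ℂ)
    (hμ : φ w = μ • w) : IsIntegral ℤ μ := by
  classical
  let g : Module.End ℂ V := φ - μ • (1 : Module.End ℂ V)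
  have hgw : g w = 0 := by
    simp [g, hμ]
  have hginj : ¬ Function.Injective g := fun hinj => hw (hinj (by rw [hgw, map_zero]))
  have hgsurj : ¬ Function.Surjective g := fun hs => hginj (LinearMap.injective_iff_surjective.mpr hs)
  have hrange : LinearMap.range g < ⊤ := by
    rw [lt_top_iff_ne_top]
    intro h
    exact hgsurj (LinearMap.range_eq_top.mp h)
  obtain ⟨ψ, hψ0, hψ⟩ := Submodule.exists_dual_map_eq_bot_of_lt_top hrange inferInstance
  have hψg : ∀ v, ψ (φ v) = μ * ψ v := by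
    intro v
    have h1 : ψ (g v) ∈ (LinearMap.range g).map ψ := ⟨g v, ⟨v, rfl⟩, rfl⟩
    rw [hψ, Submodule.mem_bot] at h1
    simp only [g, LinearMap.sub_apply, LinearMap.smul_apply, Module.End.one_apply, map_sub,
      map_smul, smul_eq_mul] at h1
    exact sub_eq_zero.mp h1
  let N : Submodule ℤ ℂ := L.map (ψ.restrictScalars ℤ)
  have hNfg : N.FG := hLfg.map _
  have hNne : N ≠ ⊥ := by
    intro hN
    apply hψ0
    have hle : Submodule.span ℂ (L : Set V) ≤ LinearMap.ker ψ := by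
      rw [Submodule.span_le]
      intro x hx
      have : ψ x ∈ N := ⟨x, hx, rfl⟩
      rw [hN, Submodule.mem_bot] at this
      exact this
    rw [hLspan] at hle
    ext v
    exact hle (Submodule.mem_top)
  refine isIntegral_of_smul_mem_submodule N hNne hNfg μ ?_
  rintro _ ⟨x, hx, rfl⟩
  refine ⟨φ x, hφL x hx, ?_⟩
  change ψ (φ x) = μ • ψ x
  rw [hψg, smul_eq_mul]


/-- Abstract Deligne--Serre lifting: a maximal ideal of a commutative ring acting faithfully on a
complex vector space, preserving a finitely generated spanning lattice, lifts to an eigencharacter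
valued in the algebraic integers, together with a compatible maximal ideal there. -/
theorem exists_lift {T : Type*} [CommRing T] {V : Type*} [AddCommGroup V] [Module ℂ V]
    (ρ : T →+* Module.End ℂ V) (hρ : Function.Injective ρ)
    (L : Submodule ℤ V) (hLfg : L.FG) (hLspan : Submodule.span ℂ (L : Set V) = ⊤)
    (hρL : ∀ t, ∀ x ∈ L, ρ t x ∈ L) (𝔪 : Ideal T) [h𝔪 : 𝔪.IsMaximal] :
    ∃ (w : V) (θ : T →+* integralClosure ℤ ℂ) (𝔪' : Ideal (integralClosure ℤ ℂ)),
      w ≠ 0 ∧ (∀ t, ρ t w = ((θ t : integralClosure ℤ ℂ) : ℂ) • w) ∧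
      𝔪'.IsMaximal ∧ ∀ t ∈ 𝔪, θ t ∈ 𝔪' := by
  classical
  haveI : FiniteDimensional ℂ V := finiteDimensional_of_lattice L hLfg hLspan
  haveI : 𝔪.IsPrime := h𝔪.isPrime
  have hne : ∀ s, s ∉ 𝔪 → ρ s ≠ 0 := by
    intro s hs h0
    apply hs
    have : s = 0 := hρ (by rw [h0, map_zero])
    rw [this]
    exact 𝔪.zero_mem
  obtain ⟨w, θ₀, hw0, hθ₀, hnv⟩ := exists_eigenchar ρ 𝔪 hne
  have hint : ∀ t, θ₀ t ∈ integralClosure ℤ ℂ := fun t =>
    isIntegral_eigenvalue L hLfg hLspan (ρ t) (hρL t) w hw0 (θ₀ t) (hθ₀ t)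
  let θ : T →+* integralClosure ℤ ℂ := θ₀.codRestrict (integralClosure ℤ ℂ) hint
  have hθval : ∀ t, ((θ t : integralClosure ℤ ℂ) : ℂ) = θ₀ t := fun t => rfl
  letI : Algebra T (integralClosure ℤ ℂ) := θ.toAlgebra
  have hker : RingHom.ker (algebraMap T (integralClosure ℤ ℂ)) ≤ 𝔪 := by
    intro t ht
    by_contra htm
    apply hnv t htm
    have h1 : θ t = 0 := ht
    have h2 := congrArg (fun x : integralClosure ℤ ℂ => (x : ℂ)) h1
    simpa [hθval] using h2
  haveI : Algebra.IsIntegral T (integralClosure ℤ ℂ) := by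
    refine ⟨fun x => ?_⟩
    have hx : IsIntegral ℤ x := integralClosure.isIntegral x
    exact hx.tower_top
  obtain ⟨Q, hQmax, hQ⟩ := Ideal.exists_ideal_over_maximal_of_isIntegral
    (S := integralClosure ℤ ℂ) 𝔪 hker
  refine ⟨w, θ, Q, hw0, ?_, hQmax, ?_⟩
  · intro t
    rw [hθval]
    exact hθ₀ t
  · intro t ht
    have : t ∈ Q.comap (algebraMap T (integralClosure ℤ ℂ)) := by rw [hQ]; exact ht
    exact this

end Fermat.Agent.S49
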