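import Mathlib
import Fermat.Prelude.Def_FormalHecke_Eigensystem

set_option autoImplicit false

namespace Fermat.Agent.S49

open FormalHecke

variable {R : Type*} [CommRing R]

theorem eigensystem_prime_pow {e a : ℕ → R} (h : IsEigensystem e a) (ℓ r : ℕ) (hℓ : ℓ.Prime) :
    a (ℓ ^ (r + 2)) = a ℓ * a (ℓ ^ (r + 1)) - e ℓ * a (ℓ ^ r) := by
  have h1 := h.2 ℓ hℓ (ℓ ^ (r + 1))
  have hdvd : ℓ ∣ ℓ ^ (r + 1) := dvd_pow_self ℓ (Nat.succ_ne_zero r)
  rw [if_pos hdvd] at h1
  have hdiv : ℓ ^ (r + 1) / ℓ = ℓ ^ r := by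
    rw [pow_succ, Nat.mul_div_cancel _ hℓ.pos]
  rw [hdiv] at h1
  have hpow : ℓ * ℓ ^ (r + 1) = ℓ ^ (r + 2) := by ring
  rw [hpow] at h1
  rw [← h1]; ring

theorem eigensystem_mul_of_coprime {e a : ℕ → R} (h : IsEigensystem e a) :
    ∀ m n : ℕ, m.Coprime n → a (m * n) = a m * a n := by
  intro m
  induction m using Nat.strong_induction_on with
  | _ m ih =>
    intro n hmn
    rcases Nat.lt_or_ge m 2 with hm | hm
    · interval_cases m
      · have hn : n = 1 := by simpa using hmn
        subst hn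
        rw [h.1]; simp
      · rw [h.1]; simp
    · have hℓ : (m.minFac).Prime := Nat.minFac_prime (by omega)
      set ℓ := m.minFac with hℓdef
      obtain ⟨m', hm'⟩ : ℓ ∣ m := Nat.minFac_dvd m
      have hm'pos : 0 < m' := by
        rcases Nat.eq_zero_or_pos m' with h0 | h0
        · rw [h0, mul_zero] at hm'; omega
        · exact h0
      have hm'lt : m' < m := by
        rw [hm']
        have := hℓ.two_le
        nlinarith
      have hcopℓ : ℓ.Coprime n := Nat.Coprime.coprime_dvd_left ⟨m', hm'⟩ hmn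
      have hcopm' : m'.Coprime n := Nat.Coprime.coprime_dvd_left ⟨ℓ, by rw [hm', mul_comm]⟩ hmn
      have hℓn : ¬ ℓ ∣ n := fun hd => hℓ.one_lt.ne' (Nat.Coprime.eq_one_of_dvd hcopℓ hd)
      have e1 := h.2 ℓ hℓ (m' * n)
      have e2 := h.2 ℓ hℓ m'
      have ihm' := ih m' hm'lt n hcopm'
      have hmn' : m * n = ℓ * (m' * n) := by rw [hm']; ring
      by_cases hd : ℓ ∣ m'
      · obtain ⟨m'', hm''⟩ := hd
        have hm''lt : m'' < m := by
          have : m'' ≤ m' := by
            rw [hm'']
            exact Nat.le_mul_of_pos_left _ hℓ.pos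
          omega
        have hcopm'' : m''.Coprime n :=
          Nat.Coprime.coprime_dvd_left ⟨ℓ, by rw [hm'', mul_comm]⟩ hcopm'
        have ihm'' := ih m'' hm''lt n hcopm''
        have hd1 : ℓ ∣ m' * n := Dvd.dvd.mul_right ⟨m'', hm''⟩ n
        have hd2 : ℓ ∣ m' := ⟨m'', hm''⟩
        rw [if_pos hd1] at e1
        rw [if_pos hd2] at e2
        have hdiv1 : m' * n / ℓ = m'' * n := by
          rw [hm'', mul_assoc, Nat.mul_div_cancel_left _ hℓ.pos]
        have hdiv2 : m' / ℓ = m'' := by
          rw [hm'', Nat.mul_div_cancel_left _ hℓ.pos]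
        rw [hdiv1, ihm'', ihm'] at e1
        rw [hdiv2] at e2
        rw [hmn', hm']
        have e1' : a (ℓ * (m' * n)) = a ℓ * (a m' * a n) - e ℓ * (a m'' * a n) := by
          rw [← e1]; ring
        have e2' : a (ℓ * m') = a ℓ * a m' - e ℓ * a m'' := by
          rw [← e2]; ring
        rw [e1', e2']; ring
      · have hd1 : ¬ ℓ ∣ m' * n := by
          intro hdd
          rcases (Nat.Prime.dvd_mul hℓ).mp hdd with h1 | h1
          · exact hd h1
          · exact hℓn h1
        rw [if_neg hd1] at e1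
        rw [if_neg hd] at e2
        rw [ihm'] at e1
        rw [hmn', hm']
        have e1' : a (ℓ * (m' * n)) = a ℓ * (a m' * a n) := by
          rw [← e1]; ring
        have e2' : a (ℓ * m') = a ℓ * a m' := by
          rw [← e2]; ring
        rw [e1', e2']; ring


theorem heckeRel_vanish {K : Type*} [Field K] {e lam b : ℕ → K}
    (h : ∀ p : ℕ, p.Prime → ∀ n : ℕ,
      b (n * p) + (if p ∣ n then e p * b (n / p) else 0) = lam p * b n)
    (h0 : b 0 = 0) (h1 : b 1 = 0) : ∀ n, b n = 0 := by
  intro n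
  induction n using Nat.strong_induction_on with
  | _ n ih =>
    rcases Nat.lt_or_ge n 2 with hn | hn
    · interval_cases n
      · exact h0
      · exact h1
    · have hp : (n.minFac).Prime := Nat.minFac_prime (by omega)
      obtain ⟨m, hm⟩ : n.minFac ∣ n := Nat.minFac_dvd n
      have hmpos : 0 < m := by
        rcases Nat.eq_zero_or_pos m with h0' | h0'
        · rw [h0', mul_zero] at hm; omega
        · exact h0'
      have hmlt : m < n := by
        have := hp.two_le
        nlinarith
      have hrel := h n.minFac hp m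
      have hmn : m * n.minFac = n := by rw [mul_comm]; exact hm.symm
      rw [hmn, ih m hmlt, mul_zero] at hrel
      by_cases hd : n.minFac ∣ m
      · rw [if_pos hd] at hrel
        have hlt : m / n.minFac < n := lt_of_le_of_lt (Nat.div_le_self _ _) hmlt
        rw [ih _ hlt, mul_zero, add_zero] at hrel
        exact hrel
      · rw [if_neg hd, add_zero] at hrel
        exact hrel

theorem heckeRel_normalize {K : Type*} [Field K] {e lam b : ℕ → K}
    (h : ∀ p : ℕ, p.Prime → ∀ n : ℕ,
      b (n * p) + (if p ∣ n then e p * b (n / p) else 0) = lam p * b n)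
    (h1 : b 1 ≠ 0) :
    IsEigensystem e (fun n => (b 1)⁻¹ * b n) ∧ ∀ p, p.Prime → lam p = (b 1)⁻¹ * b p := by
  have hlam : ∀ p, p.Prime → lam p = (b 1)⁻¹ * b p := by
    intro p hp
    have := h p hp 1
    have hnd : ¬ p ∣ 1 := fun hd => hp.one_lt.ne' (Nat.dvd_one.mp hd)
    rw [if_neg hnd, add_zero, one_mul] at this
    rw [this]
    field_simp
  refine ⟨⟨by field_simp, ?_⟩, hlam⟩
  intro p hp n
  have hrel := h p hp n
  simp only
  rw [← hlam p hp, mul_comm p n]
  by_cases hd : p ∣ n
  · rw [if_pos hd] at hrel ⊢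
    have : (b 1)⁻¹ * b (n * p) + e p * ((b 1)⁻¹ * b (n / p)) =
        (b 1)⁻¹ * (b (n * p) + e p * b (n / p)) := by ring
    rw [this, hrel]; ring
  · rw [if_neg hd] at hrel ⊢
    rw [mul_zero, add_zero]
    rw [add_zero] at hrel
    rw [hrel]; ring

end Fermat.Agent.S49
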