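import Mathlib
import Fermat.Agent.S49.QCoeff
import Fermat.Prelude.Def_FormalHecke_Eigensystem
import Fermat.Prelude.Def_ModularForm_EisensteinChiNegThree

set_option autoImplicit false

namespace Fermat.Agent.S49

open CongruenceSubgroup ModularFormClass UpperHalfPlane EisensteinWeightOne

theorem chiNegThree_cast (ℓ : ℕ) : ((chiNegThree ℓ : ℤ) : ZMod 3) = (ℓ : ZMod 3) := by
  have hℓ : (ℓ : ZMod 3) = ((ℓ % 3 : ℕ) : ZMod 3) := by
    rw [ZMod.natCast_mod]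
  rw [hℓ]
  unfold chiNegThree
  have h3 : ℓ % 3 < 3 := Nat.mod_lt _ (by norm_num)
  interval_cases (ℓ % 3) <;> simp <;> rfl

theorem qCoeff_sub_zsmul {N : ℕ} {k : ℤ} (f g : CuspForm (Gamma0 N) k) (c : ℤ) (n : ℕ) :
    qCoeff (⇑(f - c • g)) n = qCoeff (⇑f) n - (c : ℂ) * qCoeff (⇑g) n := by
  have : f - c • g = f + (-c) • g := by rw [sub_eq_add_neg, neg_zsmul]
  rw [this, qCoeff_add, qCoeff_zsmul]
  push_cast; ring

theorem heckeT_sub_mem {N : ℕ} [NeZero N] {a : ℕ → ℤ}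
    (heig : FormalHecke.IsEigensystem
      (fun ℓ => if ℓ ∣ N then 0 else ((chiNegThree ℓ : ℤ) : ℤ)) a)
    {f₀ : CuspForm (Gamma0 N) 2} {af : ℕ → ℤ} (haf : ∀ n, (af n : ℂ) = qCoeff (⇑f₀) n)
    (hcong : ∀ n, (3 : ℤ) ∣ af n - a n) {ℓ : ℕ} (hℓ : ℓ.Prime) (hℓN : ¬ ℓ ∣ N) :
    ∃ h ∈ CuspForm.intLattice N 2,
      CuspForm.heckeTLin 2 hℓ hℓN f₀ = (a ℓ) • f₀ + (3 : ℤ) • h := by
  have hcast : ∀ n, ((af n : ℤ) : ZMod 3) = ((a n : ℤ) : ZMod 3) := by
    intro n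
    have := (ZMod.intCast_zmod_eq_zero_iff_dvd (af n - a n) 3).mpr (hcong n)
    push_cast at this
    exact sub_eq_zero.mp this
  obtain ⟨h, hh, hg⟩ := exists_eq_three_smul (g := CuspForm.heckeTLin 2 hℓ hℓN f₀ - (a ℓ) • f₀) (by
    intro n
    rw [qCoeff_sub_zsmul, qCoeff_heckeTLin, ModularForm.coeffHeckeT_apply]
    simp only [← haf]
    let M : ℤ := af (n * ℓ) + (if ℓ ∣ n then (ℓ : ℤ) * af (n / ℓ) else 0) - a ℓ * af n
    have hM : (3 : ℤ) ∣ M := by
      apply (ZMod.intCast_zmod_eq_zero_iff_dvd M 3).mp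
      have hrel := heig.2 ℓ hℓ n
      simp only [if_neg hℓN] at hrel
      have hrel' := congrArg (fun x : ℤ => (x : ZMod 3)) hrel
      simp only [M]
      by_cases hd : ℓ ∣ n
      · simp only [if_pos hd] at hrel' ⊢
        push_cast at hrel' ⊢
        rw [chiNegThree_cast] at hrel'
        rw [hcast, hcast, hcast, mul_comm n ℓ, hrel']
        ring
      · simp only [if_neg hd] at hrel' ⊢
        push_cast at hrel' ⊢
        rw [hcast, hcast, mul_comm n ℓ]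
        rw [mul_zero, add_zero] at hrel'
        rw [hrel']; ring
    obtain ⟨m, hm⟩ := hM
    refine ⟨m, ?_⟩
    rw [← hm]
    simp only [M]
    by_cases hd : ℓ ∣ n
    · simp only [if_pos hd]
      push_cast
      norm_num
    · simp only [if_neg hd]
      push_cast
      ring)
  refine ⟨h, hh, ?_⟩
  rw [← hg]; abel

theorem heckeU_sub_mem {N : ℕ} [NeZero N] {a : ℕ → ℤ}
    (heig : FormalHecke.IsEigensystem
      (fun ℓ => if ℓ ∣ N then 0 else ((chiNegThree ℓ : ℤ) : ℤ)) a)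
    {f₀ : CuspForm (Gamma0 N) 2} {af : ℕ → ℤ} (haf : ∀ n, (af n : ℂ) = qCoeff (⇑f₀) n)
    (hcong : ∀ n, (3 : ℤ) ∣ af n - a n) {q : ℕ} (hq : q.Prime) (hqN : q ∣ N) :
    ∃ h ∈ CuspForm.intLattice N 2,
      CuspForm.heckeULin 2 hqN f₀ = (a q) • f₀ + (3 : ℤ) • h := by
  have hcast : ∀ n, ((af n : ℤ) : ZMod 3) = ((a n : ℤ) : ZMod 3) := by
    intro n
    have := (ZMod.intCast_zmod_eq_zero_iff_dvd (af n - a n) 3).mpr (hcong n)
    push_cast at this
    exact sub_eq_zero.mp this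
  obtain ⟨h, hh, hg⟩ := exists_eq_three_smul (g := CuspForm.heckeULin 2 hqN f₀ - (a q) • f₀) (by
    intro n
    rw [qCoeff_sub_zsmul, qCoeff_heckeULin hq, ModularForm.coeffHeckeU_apply]
    simp only [← haf]
    let M : ℤ := af (n * q) - a q * af n
    have hM : (3 : ℤ) ∣ M := by
      apply (ZMod.intCast_zmod_eq_zero_iff_dvd M 3).mp
      have hrel := heig.2 q hq n
      simp only [if_pos hqN, zero_mul, add_zero] at hrel
      have hrel' := congrArg (fun x : ℤ => (x : ZMod 3)) hrel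
      simp only [M]
      push_cast at hrel' ⊢
      rw [hcast, hcast, mul_comm n q, hrel']
      ring
    obtain ⟨m, hm⟩ := hM
    refine ⟨m, ?_⟩
    rw [← hm]
    simp only [M]
    push_cast
    ring)
  refine ⟨h, hh, ?_⟩
  rw [← hg]; abel

end Fermat.Agent.S49
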