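import Fermat.Agent.S49.Lifting
import Fermat.Agent.S49.Formal
import Fermat.Agent.S49.QCoeff
import Fermat.Agent.S49.Hecke
import Fermat.Agent.S49.Bridge
import Fermat.Prelude.Thm_CuspForm_mem_intLattice_of_mem_heckeAlgebra
import Fermat.Prelude.Thm_CuspForm_intLattice_fg

set_option autoImplicit false
open CuspForm EisensteinWeightOne CongruenceSubgroup ModularFormClass

namespace Fermat.Agent.S49

variable {N : ℕ} [NeZero N]

/-- The Hecke algebra as a commutative ring, with its tautological representation. -/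
noncomputable def heckeRep (N : ℕ) [NeZero N] :
    CuspForm.heckeAlgebra N 2 (∅ : Set ℕ) →+* Module.End ℂ (CuspForm (Gamma0 N) 2) :=
  (CuspForm.heckeAlgebra N 2 (∅ : Set ℕ)).val.toRingHom

theorem heckeRep_apply (t : CuspForm.heckeAlgebra N 2 (∅ : Set ℕ)) :
    heckeRep N t = (t : Module.End ℂ (CuspForm (Gamma0 N) 2)) := rfl

theorem heckeRep_injective : Function.Injective (heckeRep N) := by
  intro x y h
  exact Subtype.ext h

theorem heckeRep_mem_intLattice (t : CuspForm.heckeAlgebra N 2 (∅ : Set ℕ))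
    {x : CuspForm (Gamma0 N) 2} (hx : x ∈ CuspForm.intLattice N 2) :
    heckeRep N t x ∈ CuspForm.intLattice N 2 :=
  CuspForm.mem_intLattice_of_mem_heckeAlgebra (by norm_num) t.2 hx

/-- The mod `3` eigen-ideal attached to an integral form. -/
noncomputable def eigenIdeal (N : ℕ) [NeZero N] (f₀ : CuspForm (Gamma0 N) 2) :
    Ideal (CuspForm.heckeAlgebra N 2 (∅ : Set ℕ)) where
  carrier := {t | ∃ h ∈ CuspForm.intLattice N 2, heckeRep N t f₀ = (3 : ℤ) • h}
  add_mem' := by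
    rintro x y ⟨h, hh, hx⟩ ⟨h', hh', hy⟩
    refine ⟨h + h', Submodule.add_mem _ hh hh', ?_⟩
    rw [map_add, LinearMap.add_apply, hx, hy, smul_add]
  zero_mem' := ⟨0, Submodule.zero_mem _, by rw [map_zero, LinearMap.zero_apply, smul_zero]⟩
  smul_mem' := by
    rintro c x ⟨h, hh, hx⟩
    refine ⟨heckeRep N c h, heckeRep_mem_intLattice c hh, ?_⟩
    rw [smul_eq_mul, map_mul, Module.End.mul_apply, hx, map_zsmul]

theorem mem_eigenIdeal {f₀ : CuspForm (Gamma0 N) 2} {t : CuspForm.heckeAlgebra N 2 (∅ : Set ℕ)} :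
    t ∈ eigenIdeal N f₀ ↔ ∃ h ∈ CuspForm.intLattice N 2, heckeRep N t f₀ = (3 : ℤ) • h :=
  Iff.rfl


/-- Every Hecke operator acts on `f₀` as an integer scalar modulo `3`. -/
theorem exists_scalar_mod_three {a : ℕ → ℤ}
    (heig : FormalHecke.IsEigensystem
      (fun ℓ => if ℓ ∣ N then 0 else ((chiNegThree ℓ : ℤ) : ℤ)) a)
    {f₀ : CuspForm (Gamma0 N) 2} {af : ℕ → ℤ} (haf : ∀ n, (af n : ℂ) = qCoeff (⇑f₀) n)
    (hcong : ∀ n, (3 : ℤ) ∣ af n - a n)
    (x : Module.End ℂ (CuspForm (Gamma0 N) 2))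
    (hx : x ∈ CuspForm.heckeAlgebra N 2 (∅ : Set ℕ)) :
    ∃ c : ℤ, ∃ h ∈ CuspForm.intLattice N 2, x f₀ = c • f₀ + (3 : ℤ) • h := by
  have hf₀ : f₀ ∈ CuspForm.intLattice N 2 :=
    mem_intLattice_of_qCoeff fun n => ⟨af n, (haf n).symm⟩
  unfold CuspForm.heckeAlgebra at hx
  induction hx using Algebra.adjoin_induction with
  | mem x hx =>
    rcases hx with ⟨ℓ, hℓ, hℓN, -, rfl⟩ | ⟨q, hqN, hq, -, rfl⟩
    · obtain ⟨h, hh, he⟩ := heckeT_sub_mem heig haf hcong hℓ hℓN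
      exact ⟨a ℓ, h, hh, he⟩
    · obtain ⟨h, hh, he⟩ := heckeU_sub_mem heig haf hcong hq hqN
      exact ⟨a q, h, hh, he⟩
  | algebraMap r =>
    refine ⟨r, 0, Submodule.zero_mem _, ?_⟩
    rw [smul_zero, add_zero, Algebra.algebraMap_eq_smul_one, LinearMap.smul_apply,
      Module.End.one_apply]
  | add x y hx hy ihx ihy =>
    obtain ⟨c, h, hh, he⟩ := ihx
    obtain ⟨c', h', hh', he'⟩ := ihy
    refine ⟨c + c', h + h', Submodule.add_mem _ hh hh', ?_⟩
    rw [LinearMap.add_apply, he, he', add_smul, smul_add]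
    abel
  | mul x y hx hy ihx ihy =>
    obtain ⟨c, h, hh, he⟩ := ihx
    obtain ⟨c', h', hh', he'⟩ := ihy
    have hxh' : x h' ∈ CuspForm.intLattice N 2 :=
      CuspForm.mem_intLattice_of_mem_heckeAlgebra (S := (∅ : Set ℕ)) (by norm_num) hx hh'
    refine ⟨c * c', x h' + c' • h, Submodule.add_mem _ hxh' (Submodule.smul_mem _ _ hh), ?_⟩
    rw [Module.End.mul_apply, he', map_add, map_zsmul, map_zsmul, he, smul_add, smul_add,
      mul_smul, smul_comm c' (3 : ℤ) h, smul_comm c c' f₀]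
    abel


theorem heckeRep_intCast (c : ℤ) (f : CuspForm (Gamma0 N) 2) :
    heckeRep N (c : CuspForm.heckeAlgebra N 2 (∅ : Set ℕ)) f = c • f := by
  rw [map_intCast, Module.End.intCast_apply]

theorem three_mem_eigenIdeal {f₀ : CuspForm (Gamma0 N) 2}
    (hf₀ : f₀ ∈ CuspForm.intLattice N 2) :
    (3 : CuspForm.heckeAlgebra N 2 (∅ : Set ℕ)) ∈ eigenIdeal N f₀ := by
  refine ⟨f₀, hf₀, ?_⟩
  have : (3 : CuspForm.heckeAlgebra N 2 (∅ : Set ℕ)) =
      ((3 : ℤ) : CuspForm.heckeAlgebra N 2 (∅ : Set ℕ)) := by norm_num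
  rw [this, heckeRep_intCast]

theorem sub_intCast_mem_eigenIdeal {f₀ : CuspForm (Gamma0 N) 2}
    {x : CuspForm.heckeAlgebra N 2 (∅ : Set ℕ)} {c : ℤ}
    {h : CuspForm (Gamma0 N) 2} (hh : h ∈ CuspForm.intLattice N 2)
    (he : heckeRep N x f₀ = c • f₀ + (3 : ℤ) • h) :
    x - (c : CuspForm.heckeAlgebra N 2 (∅ : Set ℕ)) ∈ eigenIdeal N f₀ := by
  refine ⟨h, hh, ?_⟩
  rw [map_sub, LinearMap.sub_apply, heckeRep_intCast, he]
  abel

theorem eigenIdeal_isMaximal {a : ℕ → ℤ}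
    (heig : FormalHecke.IsEigensystem
      (fun ℓ => if ℓ ∣ N then 0 else ((chiNegThree ℓ : ℤ) : ℤ)) a)
    {f₀ : CuspForm (Gamma0 N) 2} {af : ℕ → ℤ} (haf : ∀ n, (af n : ℂ) = qCoeff (⇑f₀) n)
    (hcong : ∀ n, (3 : ℤ) ∣ af n - a n) : (eigenIdeal N f₀).IsMaximal := by
  have hf₀ : f₀ ∈ CuspForm.intLattice N 2 :=
    mem_intLattice_of_qCoeff fun n => ⟨af n, (haf n).symm⟩
  rw [Ideal.isMaximal_iff]
  constructor
  · rintro ⟨h, hh, he⟩
    rw [map_one, Module.End.one_apply] at he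
    obtain ⟨m, hm⟩ := intLattice_qCoeff hh 1
    have h0 := congrArg (fun g : CuspForm (Gamma0 N) 2 => qCoeff (⇑g) 1) he
    simp only [qCoeff_zsmul, hm, ← haf] at h0
    have h1 : af 1 = 3 * m := by exact_mod_cast h0
    have h2 := hcong 1
    rw [heig.1, h1] at h2
    omega
  · intro J x hJ hx hxJ
    obtain ⟨c, h, hh, he⟩ := exists_scalar_mod_three heig haf hcong x.1 x.2
    have hy := sub_intCast_mem_eigenIdeal (x := x) hh he
    have h3 := three_mem_eigenIdeal hf₀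
    have hc : ¬ (3 : ℤ) ∣ c := by
      rintro ⟨c', rfl⟩
      apply hx
      have : x = (x - ((3 * c' : ℤ) : CuspForm.heckeAlgebra N 2 (∅ : Set ℕ))) +
          (3 : CuspForm.heckeAlgebra N 2 (∅ : Set ℕ)) * (c' : CuspForm.heckeAlgebra N 2 (∅ : Set ℕ)) := by
        push_cast; ring
      rw [this]
      exact Ideal.add_mem _ hy (Ideal.mul_mem_right _ _ h3)
    have hcop : IsCoprime c 3 := by
      have h3p : Prime (3 : ℤ) := Int.prime_three
      exact (IsCoprime.symm ((Prime.coprime_iff_not_dvd h3p).mpr hc))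
    obtain ⟨u, v, huv⟩ := hcop
    have h1 : (1 : CuspForm.heckeAlgebra N 2 (∅ : Set ℕ)) =
        (u : CuspForm.heckeAlgebra N 2 (∅ : Set ℕ)) * x -
          (u : CuspForm.heckeAlgebra N 2 (∅ : Set ℕ)) *
            (x - (c : CuspForm.heckeAlgebra N 2 (∅ : Set ℕ))) +
          (v : CuspForm.heckeAlgebra N 2 (∅ : Set ℕ)) * 3 := by
      have := congrArg (fun z : ℤ => (z : CuspForm.heckeAlgebra N 2 (∅ : Set ℕ))) huv
      push_cast at this
      rw [← this]; ring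
    rw [h1]
    exact J.add_mem (J.sub_mem (J.mul_mem_left _ hxJ) (J.mul_mem_left _ (hJ hy)))
      (J.mul_mem_left _ (hJ h3))

end Fermat.Agent.S49
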