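import Mathlib
import Fermat.Prelude.Def_FormalHecke_Eigensystem
import Fermat.Prelude.Def_FLTPrelim_Modularity
import Fermat.Prelude.Def_ModularForm_HeckeOperatorForms
import Fermat.Prelude.Thm_ModularFormClass_qCoeff_heckeT
import Fermat.Prelude.Thm_ModularFormClass_qCoeff_heckeU
import Fermat.Prelude.Thm_CongruenceSubgroup_one_mem_strictPeriods_Gamma0

set_option autoImplicit false

namespace Fermat.Agent.S49

open FormalHecke

section Algebra

variable {R : Type*} [CommRing R]

/-- An eigensystem is multiplicative on coprime arguments. -/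
theorem mul_of_coprime_of_isEigensystem {e a : ℕ → R} (h : IsEigensystem e a) :
    ∀ m n : ℕ, m.Coprime n → a (m * n) = a m * a n := by
  obtain ⟨h1, hE⟩ := h
  intro m
  induction m using Nat.strong_induction_on with
  | _ m ih =>
    intro n hmn
    rcases Nat.lt_or_ge m 2 with hm | hm
    · interval_cases m
      · have hn : n = 1 := by simpa using hmn
        subst hn
        simp [h1]
      · simp [h1]
    · -- m ≥ 2
      set ℓ := m.minFac with hℓdef
      have hℓ : ℓ.Prime := Nat.minFac_prime (by omega)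
      obtain ⟨m', hm'⟩ : ℓ ∣ m := Nat.minFac_dvd m
      have hm'pos : 0 < m' := by
        rcases Nat.eq_zero_or_pos m' with h0 | h0
        · subst h0; omega
        · exact h0
      have hm'lt : m' < m := by
        rw [hm']
        have := hℓ.two_le
        nlinarith
      have hcop' : m'.Coprime n := Nat.Coprime.coprime_dvd_left ⟨ℓ, by rw [hm', mul_comm]⟩ hmn
      have hℓn : ¬ ℓ ∣ n := by
        intro hdvd
        have : ℓ ∣ Nat.gcd m n := Nat.dvd_gcd (Nat.minFac_dvd m) hdvd
        rw [hmn] at this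
        exact hℓ.one_lt.ne' (Nat.dvd_one.mp this)
      have hdvd_iff : ℓ ∣ m' * n ↔ ℓ ∣ m' := by
        constructor
        · intro hd
          rcases (Nat.Prime.dvd_mul hℓ).mp hd with h | h
          · exact h
          · exact absurd h hℓn
        · intro hd; exact dvd_mul_of_dvd_left hd n
      have e1 := hE ℓ hℓ (m' * n)
      have e2 := hE ℓ hℓ m'
      have hmn_eq : m * n = ℓ * (m' * n) := by rw [hm', mul_assoc]
      rw [hmn_eq, hm']
      by_cases hd : ℓ ∣ m'
      · obtain ⟨m'', hm''⟩ := hd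
        have hm''lt : m'' < m := by
          have := hℓ.two_le
          have : m'' < m' := by
            rw [hm'']
            rcases Nat.eq_zero_or_pos m'' with h0 | h0
            · subst h0; omega
            · nlinarith
          omega
        have hcop'' : m''.Coprime n :=
          Nat.Coprime.coprime_dvd_left ⟨ℓ, by rw [hm'', mul_comm]⟩ hcop'
        have hdiv1 : m' * n / ℓ = m'' * n := by
          rw [hm'', mul_assoc]; exact Nat.mul_div_cancel_left _ hℓ.pos
        have hdiv2 : m' / ℓ = m'' := by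
          rw [hm'']; exact Nat.mul_div_cancel_left _ hℓ.pos
        rw [if_pos (hdvd_iff.mpr ⟨m'', hm''⟩), hdiv1, ih m' hm'lt n hcop',
          ih m'' hm''lt n hcop''] at e1
        rw [if_pos ⟨m'', hm''⟩, hdiv2] at e2
        linear_combination e1 - a n * e2
      · rw [if_neg (fun h => hd (hdvd_iff.mp h)), ih m' hm'lt n hcop'] at e1
        rw [if_neg hd] at e2
        linear_combination e1 - a n * e2

theorem isRecursive_of_isEigensystem {e a : ℕ → R} (h : IsEigensystem e a) : IsRecursive e a := by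
  refine ⟨h.1, mul_of_coprime_of_isEigensystem h, ?_⟩
  intro ℓ r hℓ
  have e1 := h.2 ℓ hℓ (ℓ ^ (r + 1))
  have hd : ℓ ∣ ℓ ^ (r + 1) := dvd_pow_self ℓ (by omega)
  have hdiv : ℓ ^ (r + 1) / ℓ = ℓ ^ r := by
    rw [pow_succ]; exact Nat.mul_div_cancel _ hℓ.pos
  rw [if_pos hd, hdiv] at e1
  have : ℓ ^ (r + 2) = ℓ * ℓ ^ (r + 1) := by ring
  rw [this]
  linear_combination e1

end Algebra

section Forms

open ModularFormClass CongruenceSubgroup UpperHalfPlane

variable {N : ℕ}

theorem one_mem_strictPeriods_Gamma0 :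
    (1 : ℝ) ∈ ((Gamma0 N : Subgroup (Matrix.SpecialLinearGroup (Fin 2) ℤ)) :
      Subgroup (GL (Fin 2) ℝ)).strictPeriods :=
  CongruenceSubgroup.one_mem_strictPeriods_Gamma0 N

theorem qCoeff_smul (c : ℂ) (f : CuspForm (Gamma0 N) 2) (n : ℕ) :
    qCoeff (c • f : CuspForm (Gamma0 N) 2) n = c * qCoeff f n := by
  have h := ModularForm.qExpansion_smul one_pos (one_mem_strictPeriods_Gamma0 (N := N)) c f
  have hcoe : ((c • f : CuspForm (Gamma0 N) 2) : ℍ → ℂ) = c • (f : ℍ → ℂ) := rfl
  rw [qCoeff, hcoe, h]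
  simp [qCoeff]

theorem qCoeff_zero_eq_zero (f : CuspForm (Gamma0 N) 2) : qCoeff f 0 = 0 :=
  CuspFormClass.qExpansion_coeff_zero f one_pos (one_mem_strictPeriods_Gamma0 (N := N))

theorem eq_zero_of_forall_qCoeff_eq_zero (f : CuspForm (Gamma0 N) 2)
    (h : ∀ n, qCoeff f n = 0) : f = 0 := by
  have hΓ := one_mem_strictPeriods_Gamma0 (N := N)
  have : Fact (IsCusp OnePoint.infty ((Gamma0 N : Subgroup (Matrix.SpecialLinearGroup (Fin 2) ℤ)) :
      Subgroup (GL (Fin 2) ℝ))) := ⟨Subgroup.isCusp_of_mem_strictPeriods one_pos hΓ⟩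
  have hq : qExpansion 1 (f : ℍ → ℂ) = 0 := by
    ext n
    simpa [qCoeff] using h n
  have := (qExpansion_eq_zero_iff one_pos (SlashInvariantFormClass.periodic_comp_ofComplex f hΓ)
    (ModularFormClass.holo f) (ModularFormClass.bdd_at_infty f)).mp hq
  exact DFunLike.coe_injective this

/-- The level-dependent weight-2 Euler factor coefficient. -/
noncomputable def eulerE (N : ℕ) (ℓ : ℕ) : ℂ := if ℓ ∣ N then 0 else (ℓ : ℂ)

theorem qCoeff_heckeTLin (f : CuspForm (Gamma0 N) 2) {ℓ : ℕ} (hℓ : ℓ.Prime) (hℓN : ¬ ℓ ∣ N)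
    (n : ℕ) :
    qCoeff (CuspForm.heckeTLin 2 hℓ hℓN f) n =
      qCoeff f (n * ℓ) + if ℓ ∣ n then (ℓ : ℂ) * qCoeff f (n / ℓ) else 0 := by
  have h := ModularFormClass.qCoeff_heckeT f (one_mem_strictPeriods_Gamma0 (N := N))
    (k := 2) hℓ.ne_zero n
  rw [CuspForm.coe_heckeTLin_apply, h, ModularForm.coeffHeckeT]
  norm_num

variable [NeZero N]

theorem qCoeff_heckeULin (f : CuspForm (Gamma0 N) 2) {q : ℕ} (hq : q.Prime) (hqN : q ∣ N)
    (n : ℕ) :
    qCoeff (CuspForm.heckeULin 2 hqN f) n = qCoeff f (n * q) := by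
  have h := ModularFormClass.qCoeff_heckeU f (one_mem_strictPeriods_Gamma0 (N := N))
    (k := 2) hq.ne_zero n
  rw [CuspForm.coe_heckeULin_apply, h, ModularForm.coeffHeckeU]

/-- Coefficient relation satisfied by a common eigenvector of all `T_ℓ` and `U_q`. -/
theorem qCoeff_relation_of_eigenvector (v : CuspForm (Gamma0 N) 2) (c : ℕ → ℂ)
    (hT : ∀ (ℓ : ℕ) (hℓ : ℓ.Prime) (hℓN : ¬ ℓ ∣ N), CuspForm.heckeTLin 2 hℓ hℓN v = c ℓ • v)
    (hU : ∀ (q : ℕ) (_ : q.Prime) (hqN : q ∣ N), CuspForm.heckeULin 2 hqN v = c q • v)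
    (ℓ : ℕ) (hℓ : ℓ.Prime) (n : ℕ) :
    qCoeff v (ℓ * n) + eulerE N ℓ * (if ℓ ∣ n then qCoeff v (n / ℓ) else 0) =
      c ℓ * qCoeff v n := by
  by_cases hℓN : ℓ ∣ N
  · have h := qCoeff_heckeULin v hℓ hℓN n
    rw [hU ℓ hℓ hℓN, qCoeff_smul] at h
    rw [eulerE, if_pos hℓN, zero_mul, add_zero, mul_comm ℓ n, h]
  · have h := qCoeff_heckeTLin v hℓ hℓN n
    rw [hT ℓ hℓ hℓN, qCoeff_smul] at h
    rw [eulerE, if_neg hℓN, mul_comm ℓ n, h]
    split_ifs <;> ring

theorem qCoeff_one_ne_zero_of_eigenvector (v : CuspForm (Gamma0 N) 2) (hv : v ≠ 0) (c : ℕ → ℂ)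
    (hT : ∀ (ℓ : ℕ) (hℓ : ℓ.Prime) (hℓN : ¬ ℓ ∣ N), CuspForm.heckeTLin 2 hℓ hℓN v = c ℓ • v)
    (hU : ∀ (q : ℕ) (_ : q.Prime) (hqN : q ∣ N), CuspForm.heckeULin 2 hqN v = c q • v) :
    qCoeff v 1 ≠ 0 := by
  intro h1
  apply hv
  apply eq_zero_of_forall_qCoeff_eq_zero
  intro n
  induction n using Nat.strong_induction_on with
  | _ n ih =>
    rcases Nat.lt_or_ge n 2 with hn | hn
    · interval_cases n
      · exact qCoeff_zero_eq_zero v
      · exact h1
    · set ℓ := n.minFac with hℓdef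
      have hℓ : ℓ.Prime := Nat.minFac_prime (by omega)
      obtain ⟨m, hm⟩ : ℓ ∣ n := Nat.minFac_dvd n
      have hmpos : 0 < m := by
        rcases Nat.eq_zero_or_pos m with h0 | h0
        · subst h0; omega
        · exact h0
      have hmlt : m < n := by
        rw [hm]
        have := hℓ.two_le
        nlinarith
      have hrel := qCoeff_relation_of_eigenvector v c hT hU ℓ hℓ m
      rw [ih m hmlt, mul_zero] at hrel
      have hdiv : (if ℓ ∣ m then qCoeff v (m / ℓ) else 0) = 0 := by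
        split_ifs with hd
        · apply ih
          have := Nat.div_le_self m ℓ
          omega
        · rfl
      rw [hdiv, mul_zero, add_zero] at hrel
      rw [hm]; exact hrel

/-- A nonzero common eigenvector of all `T_ℓ` (`ℓ ∤ N`) and `U_q` (`q ∣ N`) in weight 2 can be
rescaled to a normalised eigenform whose prime-index coefficients are the eigenvalues. -/
theorem exists_isNormalizedEigenform_of_eigenvector (v : CuspForm (Gamma0 N) 2) (hv : v ≠ 0)
    (c : ℕ → ℂ)
    (hT : ∀ (ℓ : ℕ) (hℓ : ℓ.Prime) (hℓN : ¬ ℓ ∣ N), CuspForm.heckeTLin 2 hℓ hℓN v = c ℓ • v)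
    (hU : ∀ (q : ℕ) (_ : q.Prime) (hqN : q ∣ N), CuspForm.heckeULin 2 hqN v = c q • v) :
    ∃ f : CuspForm (Gamma0 N) 2, f.IsNormalizedEigenform ∧
      (∀ ℓ : ℕ, ℓ.Prime → qCoeff f ℓ = c ℓ) ∧ ∃ z : ℂ, z ≠ 0 ∧ f = z • v := by
  have h1 := qCoeff_one_ne_zero_of_eigenvector v hv c hT hU
  set z : ℂ := (qCoeff v 1)⁻¹ with hz
  have hz0 : z ≠ 0 := inv_ne_zero h1
  refine ⟨z • v, ?_, ?_, z, hz0, rfl⟩
  · have hone : qCoeff (z • v : CuspForm (Gamma0 N) 2) 1 = 1 := by
      rw [qCoeff_smul, hz, inv_mul_cancel₀ h1]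
    have hrel : ∀ (ℓ : ℕ) (hℓ : ℓ.Prime) (n : ℕ),
        qCoeff (z • v : CuspForm (Gamma0 N) 2) (ℓ * n) + eulerE N ℓ *
          (if ℓ ∣ n then qCoeff (z • v : CuspForm (Gamma0 N) 2) (n / ℓ) else 0) =
        c ℓ * qCoeff (z • v : CuspForm (Gamma0 N) 2) n := by
      intro ℓ hℓ n
      have := qCoeff_relation_of_eigenvector v c hT hU ℓ hℓ n
      simp only [qCoeff_smul]
      split_ifs with hd
      · rw [if_pos hd] at this
        linear_combination z * this
      · rw [if_neg hd] at this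
        linear_combination z * this
    have hc : ∀ (ℓ : ℕ), ℓ.Prime → qCoeff (z • v : CuspForm (Gamma0 N) 2) ℓ = c ℓ := by
      intro ℓ hℓ
      have := hrel ℓ hℓ 1
      rw [if_neg (by simpa using hℓ.one_lt.ne'), mul_zero, add_zero, mul_one, hone, mul_one] at this
      exact this
    have heig : IsEigensystem (eulerE N) (fun n => qCoeff (z • v : CuspForm (Gamma0 N) 2) n) := by
      refine ⟨hone, ?_⟩
      intro ℓ hℓ n
      have := hrel ℓ hℓ n
      rw [← hc ℓ hℓ] at this
      exact this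
    obtain ⟨-, hmul, hpow⟩ := isRecursive_of_isEigensystem heig
    exact
      { qCoeff_one := hone
        qCoeff_mul_of_coprime := hmul
        qCoeff_prime_pow_of_not_dvd := by
          intro p r hp hpN
          have := hpow p r hp
          simpa [eulerE, hpN] using this
        qCoeff_prime_pow_of_dvd := by
          intro p r hp hpN
          have := hpow p r hp
          simpa [eulerE, hpN] using this }
  · intro ℓ hℓ
    have hone : qCoeff (z • v : CuspForm (Gamma0 N) 2) 1 = 1 := by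
      rw [qCoeff_smul, hz, inv_mul_cancel₀ h1]
    have := qCoeff_relation_of_eigenvector v c hT hU ℓ hℓ 1
    rw [if_neg (by simpa using hℓ.one_lt.ne'), mul_zero, add_zero, mul_one] at this
    rw [qCoeff_smul, this, hz]
    field_simp

end Forms

end Fermat.Agent.S49
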