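import Mathlib
import Fermat.Prelude.Def_CuspForm_IntegralLattice
import Fermat.Prelude.Def_FormalHecke_Eigensystem
import Fermat.Prelude.Def_ModularForm_EisensteinChiNegThree
import Fermat.Prelude.Def_FLTPrelim_Modularity
import Fermat.Prelude.Def_CuspForm_HeckeAlgebra
import Fermat.Prelude.Thm_ModularFormClass_qCoeff_heckeT
import Fermat.Prelude.Thm_ModularFormClass_qCoeff_heckeU
import Fermat.Prelude.Thm_CongruenceSubgroup_one_mem_strictPeriods_Gamma0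

set_option autoImplicit false

noncomputable section

open CuspForm EisensteinWeightOne CongruenceSubgroup ModularFormClass

namespace Fermat.Agent.S49.Mod3

variable {N : ℕ}

theorem hΓ (N : ℕ) :
    (1 : ℝ) ∈ (Subgroup.map (Matrix.SpecialLinearGroup.mapGL ℝ) (Gamma0 N)).strictPeriods :=
  CongruenceSubgroup.one_mem_strictPeriods_Gamma0 N

theorem qCoeff_add {k : ℤ} (f g : CuspForm (Gamma0 N) k) (n : ℕ) :
    qCoeff ⇑(f + g) n = qCoeff ⇑f n + qCoeff ⇑g n := by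
  simp only [qCoeff, FunLike.coe_add]
  rw [ModularForm.qExpansion_add one_pos (hΓ N) f g, map_add]

theorem qCoeff_sub {k : ℤ} (f g : CuspForm (Gamma0 N) k) (n : ℕ) :
    qCoeff ⇑(f - g) n = qCoeff ⇑f n - qCoeff ⇑g n := by
  simp only [qCoeff, FunLike.coe_sub]
  rw [ModularForm.qExpansion_sub one_pos (hΓ N) f g, map_sub]

theorem qCoeff_smul {k : ℤ} (c : ℂ) (f : CuspForm (Gamma0 N) k) (n : ℕ) :
    qCoeff ⇑(c • f) n = c * qCoeff ⇑f n := by
  have h1 : ⇑(c • f) = c • ⇑f := by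
    ext z
    simp
  simp only [qCoeff, h1]
  rw [ModularForm.qExpansion_smul one_pos (hΓ N) c f]
  simp

theorem mem_qIntegralSet_iff (f : CuspForm (Gamma0 N) 2) :
    f ∈ qIntegralSet N ↔ ∀ n : ℕ, ∃ m : ℤ, qCoeff f n = (m : ℂ) := by
  unfold qIntegralSet
  refine forall_congr' fun n => ?_
  rw [Subring.mem_bot]
  constructor
  · rintro ⟨m, hm⟩
    exact ⟨m, hm.symm⟩
  · rintro ⟨m, hm⟩
    exact ⟨m, hm.symm⟩

/-- `e1Chi3` is congruent to `1` modulo `3`. -/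
theorem three_dvd_coeff_e1Chi3 (n : ℕ) :
    (3 : ℤ) ∣ PowerSeries.coeff n (e1Chi3In ℤ) - (if n = 0 then 1 else 0) := by
  unfold e1Chi3In e1Chi3
  rw [PowerSeries.coeff_map, PowerSeries.coeff_mk]
  by_cases hn : n = 0
  · simp [hn]
  · simp only [hn, if_false, Int.coe_castRingHom, Int.cast_id, sub_zero]
    exact Dvd.dvd.mul_right (by norm_num) _

theorem three_dvd_bridgeProduct_coeff_sub (a : ℕ → ℤ) (n : ℕ) :
    (3 : ℤ) ∣ PowerSeries.coeff n (bridgeProduct a) - a n := by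
  unfold bridgeProduct
  rw [PowerSeries.coeff_mul]
  have h1 : a n = ∑ p ∈ Finset.HasAntidiagonal.antidiagonal n,
      PowerSeries.coeff p.1 (PowerSeries.mk a) * (if p.2 = 0 then (1 : ℤ) else 0) := by
    rw [Finset.sum_eq_single (n, 0)]
    · simp
    · rintro ⟨i, j⟩ hij hne
      have hj : j ≠ 0 := by
        rintro rfl
        apply hne
        simp only [Finset.HasAntidiagonal.mem_antidiagonal, add_zero] at hij
        rw [hij]
      simp [hj]
    · intro h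
      exact absurd (by simp) h
  rw [h1, ← Finset.sum_sub_distrib]
  refine Finset.dvd_sum fun p _ => ?_
  rw [← mul_sub]
  exact Dvd.dvd.mul_left (three_dvd_coeff_e1Chi3 p.2) _

theorem three_dvd_natCast_sub_chiNegThree (ℓ : ℕ) : (3 : ℤ) ∣ (ℓ : ℤ) - chiNegThree ℓ := by
  unfold chiNegThree
  have h := Nat.mod_lt ℓ (by norm_num : 3 > 0)
  have h2 : (ℓ : ℤ) = 3 * (ℓ / 3 : ℕ) + (ℓ % 3 : ℕ) := by
    exact_mod_cast (Nat.div_add_mod ℓ 3).symm
  interval_cases hmod : ℓ % 3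
  · simp only [Nat.zero_ne_one, if_false]
    norm_num
    omega
  · simp only [if_true]
    omega
  · simp only [if_true]
    norm_num
    omega

/-- A cusp form all of whose `q`-coefficients are `3 * integer` is `3 • (integral form)`. -/
theorem exists_eq_three_smul {f : CuspForm (Gamma0 N) 2}
    (h : ∀ n, ∃ m : ℤ, qCoeff f n = (3 : ℂ) * (m : ℂ)) :
    ∃ g ∈ qIntegralSet N, f = (3 : ℂ) • g := by
  refine ⟨(3 : ℂ)⁻¹ • f, ?_, ?_⟩
  · rw [mem_qIntegralSet_iff]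
    intro n
    obtain ⟨m, hm⟩ := h n
    refine ⟨m, ?_⟩
    rw [qCoeff_smul, hm]
    field_simp
  · rw [smul_smul, mul_inv_cancel₀ (by norm_num : (3 : ℂ) ≠ 0), one_smul]

theorem heckeT_sub_smul_eq {a : ℕ → ℤ}
    (heig : FormalHecke.IsEigensystem
      (fun ℓ => if ℓ ∣ N then 0 else ((chiNegThree ℓ : ℤ) : ℤ)) a)
    {f : CuspForm (Gamma0 N) 2} {af : ℕ → ℤ} (haf : ∀ n, (af n : ℂ) = qCoeff f n)
    (hcong : ∀ n, (3 : ℤ) ∣ af n - a n)
    {ℓ : ℕ} (hℓ : ℓ.Prime) (hℓN : ¬ ℓ ∣ N) :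
    ∃ g ∈ qIntegralSet N, heckeTLin 2 hℓ hℓN f - (a ℓ : ℂ) • f = (3 : ℂ) • g := by
  apply exists_eq_three_smul
  intro n
  rw [qCoeff_sub, qCoeff_smul, coe_heckeTLin_apply,
    ModularFormClass.qCoeff_heckeT f (hΓ N) hℓ.ne_zero n, ModularForm.coeffHeckeT_apply]
  have he := heig.2 ℓ hℓ n
  simp only [hℓN, if_false] at he
  obtain ⟨c1, h1⟩ := hcong (n * ℓ)
  obtain ⟨c2, h2⟩ := hcong n
  obtain ⟨c3, h3⟩ := hcong (n / ℓ)
  obtain ⟨c4, h4⟩ := three_dvd_natCast_sub_chiNegThree ℓ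
  rw [mul_comm ℓ n] at he
  simp only [← haf]
  by_cases hdvd : ℓ ∣ n
  · simp only [hdvd, if_true] at he ⊢
    refine ⟨c1 + ℓ * c3 + c4 * a (n / ℓ) - a ℓ * c2, ?_⟩
    have key : af (n * ℓ) + (ℓ : ℤ) * af (n / ℓ) - a ℓ * af n =
        3 * (c1 + ℓ * c3 + c4 * a (n / ℓ) - a ℓ * c2) := by
      linear_combination h1 + (ℓ : ℤ) * h3 + a (n / ℓ) * h4 - a ℓ * h2 + he
    have key' := congrArg (Int.cast : ℤ → ℂ) key
    push_cast at key' ⊢
    rw [zpow_one]
    linear_combination key'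
  · simp only [hdvd, if_false, add_zero, mul_zero] at he ⊢
    refine ⟨c1 - a ℓ * c2, ?_⟩
    have key : af (n * ℓ) - a ℓ * af n = 3 * (c1 - a ℓ * c2) := by
      linear_combination h1 - a ℓ * h2 + he
    have key' := congrArg (Int.cast : ℤ → ℂ) key
    push_cast at key' ⊢
    linear_combination key'

theorem heckeU_sub_smul_eq [NeZero N] {a : ℕ → ℤ}
    (heig : FormalHecke.IsEigensystem
      (fun ℓ => if ℓ ∣ N then 0 else ((chiNegThree ℓ : ℤ) : ℤ)) a)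
    {f : CuspForm (Gamma0 N) 2} {af : ℕ → ℤ} (haf : ∀ n, (af n : ℂ) = qCoeff f n)
    (hcong : ∀ n, (3 : ℤ) ∣ af n - a n)
    {q : ℕ} (hq : q.Prime) (hqN : q ∣ N) :
    ∃ g ∈ qIntegralSet N, heckeULin 2 hqN f - (a q : ℂ) • f = (3 : ℂ) • g := by
  apply exists_eq_three_smul
  intro n
  rw [qCoeff_sub, qCoeff_smul, coe_heckeULin_apply,
    ModularFormClass.qCoeff_heckeU f (hΓ N) hq.ne_zero n, ModularForm.coeffHeckeU_apply]
  have he := heig.2 q hq n
  simp only [hqN, if_true, zero_mul, add_zero] at he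
  obtain ⟨c1, h1⟩ := hcong (n * q)
  obtain ⟨c2, h2⟩ := hcong n
  rw [mul_comm q n] at he
  simp only [← haf]
  refine ⟨c1 - a q * c2, ?_⟩
  have key : af (n * q) - a q * af n = 3 * (c1 - a q * c2) := by
    linear_combination h1 - a q * h2 + he
  have key' := congrArg (Int.cast : ℤ → ℂ) key
  push_cast at key' ⊢
  linear_combination key'

/-- Packaged form: from the hypotheses of S49, an integral form `f₀` which is a mod-3
eigenvector of all Hecke operators with eigenvalues `a ℓ`, and is not in `3 • L`. -/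
theorem exists_mod_three_eigenvector [NeZero N] {a : ℕ → ℤ}
    (heig : FormalHecke.IsEigensystem
      (fun ℓ => if ℓ ∣ N then 0 else ((chiNegThree ℓ : ℤ) : ℤ)) a)
    (hreal : CuspForm.IsLatticeRealized N a) :
    ∃ f ∈ qIntegralSet N,
      (¬ ∃ g ∈ qIntegralSet N, f = (3 : ℂ) • g) ∧
      (∀ (ℓ : ℕ) (hℓ : ℓ.Prime) (hℓN : ¬ ℓ ∣ N),
        ∃ g ∈ qIntegralSet N, heckeTLin 2 hℓ hℓN f - (a ℓ : ℂ) • f = (3 : ℂ) • g) ∧
      (∀ (q : ℕ) (_ : q.Prime) (hqN : q ∣ N),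
        ∃ g ∈ qIntegralSet N, heckeULin 2 hqN f - (a q : ℂ) • f = (3 : ℂ) • g) := by
  obtain ⟨f, hf, af, haf, hcong0⟩ := hreal
  have hcong : ∀ n, (3 : ℤ) ∣ af n - a n := fun n => by
    have := dvd_add (hcong0 n) (three_dvd_bridgeProduct_coeff_sub a n)
    rwa [sub_add_sub_cancel] at this
  refine ⟨f, hf, ?_, fun ℓ hℓ hℓN => heckeT_sub_smul_eq heig haf hcong hℓ hℓN,
    fun q hq hqN => heckeU_sub_smul_eq heig haf hcong hq hqN⟩
  rintro ⟨g, hg, hfg⟩
  rw [mem_qIntegralSet_iff] at hg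
  obtain ⟨m, hm⟩ := hg 1
  have h1 : qCoeff f 1 = (3 : ℂ) * (m : ℂ) := by
    rw [hfg, qCoeff_smul, hm]
  rw [← haf 1] at h1
  have h2 : af 1 = 3 * m := by exact_mod_cast h1
  obtain ⟨c, hc⟩ := hcong 1
  rw [heig.1, h2] at hc
  omega

end Fermat.Agent.S49.Mod3
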