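import Mathlib
import Fermat.Prelude.Def_CuspForm_IntegralLattice
import Fermat.Prelude.Def_CuspForm_IntegralStructure
import Fermat.Prelude.Def_CuspForm_HeckeAlgebra
import Fermat.Prelude.Thm_CuspForm_intLattice_fg
import Fermat.Prelude.Thm_CuspForm_mem_intLattice_of_coe_eq_heckeT
import Fermat.Prelude.Thm_CuspForm_mem_intLattice_of_coe_eq_heckeU
import Fermat.Agent.S49.Mod3

set_option autoImplicit false

noncomputable section

open CuspForm CongruenceSubgroup ModularFormClass

namespace Fermat.Agent.S49.Glue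

open Fermat.Agent.S49.Mod3

variable {N : ℕ}

/-- The integral lattice of the Prelude, as an explicit submodule. -/
def intSubmodule (N : ℕ) : Submodule ℤ (CuspForm (Gamma0 N) 2) where
  carrier := qIntegralSet N
  add_mem' {f g} hf hg := by
    rw [mem_qIntegralSet_iff] at hf hg ⊢
    intro n
    obtain ⟨a, ha⟩ := hf n
    obtain ⟨b, hb⟩ := hg n
    exact ⟨a + b, by rw [qCoeff_add, ha, hb]; push_cast; ring⟩
  zero_mem' := by
    rw [mem_qIntegralSet_iff]
    intro n
    refine ⟨0, ?_⟩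
    have : qCoeff ⇑(0 : CuspForm (Gamma0 N) 2) n = qCoeff ⇑((0 : ℂ) • (0 : CuspForm (Gamma0 N) 2)) n := by
      rw [smul_zero]
    rw [this, qCoeff_smul]
    simp
  smul_mem' c {f} hf := by
    rw [mem_qIntegralSet_iff] at hf ⊢
    intro n
    obtain ⟨a, ha⟩ := hf n
    refine ⟨c * a, ?_⟩
    have h1 : c • f = (c : ℂ) • f := by
      ext z
      simp
    rw [h1, qCoeff_smul, ha]
    push_cast
    ring

theorem mem_intSubmodule_iff (f : CuspForm (Gamma0 N) 2) :
    f ∈ intSubmodule N ↔ f ∈ qIntegralSet N := Iff.rfl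

theorem intLattice_eq (N : ℕ) : CuspForm.intLattice N 2 = intSubmodule N := by
  have h : {f : CuspForm (Gamma0 N) 2 | ∀ n : ℕ, ∃ m : ℤ, qCoeff f n = (m : ℂ)} =
      (intSubmodule N : Set (CuspForm (Gamma0 N) 2)) := by
    ext f
    exact (mem_qIntegralSet_iff f).symm
  unfold CuspForm.intLattice
  rw [h]
  exact Submodule.span_eq (intSubmodule N)

theorem intSubmodule_fg (N : ℕ) [NeZero N] : (intSubmodule N).FG := by
  rw [← intLattice_eq]
  exact CuspForm.intLattice_fg N 2

theorem span_intSubmodule (h : CuspForm.HasIntegralBasis N) :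
    Submodule.span ℂ ((intSubmodule N : Submodule ℤ (CuspForm (Gamma0 N) 2)) :
      Set (CuspForm (Gamma0 N) 2)) = ⊤ := h

theorem finiteDimensional [NeZero N] (h : CuspForm.HasIntegralBasis N) :
    FiniteDimensional ℂ (CuspForm (Gamma0 N) 2) := by
  obtain ⟨S, hS⟩ := intSubmodule_fg N
  have h1 : Submodule.span ℂ ((S : Set (CuspForm (Gamma0 N) 2))) = ⊤ := by
    apply top_unique
    rw [← span_intSubmodule h]
    apply Submodule.span_le.mpr
    intro x hx
    have hx' : x ∈ Submodule.span ℤ (S : Set (CuspForm (Gamma0 N) 2)) := by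
      rw [hS]; exact hx
    exact Submodule.span_subset_span ℤ ℂ _ hx'
  exact ⟨⟨S, h1⟩⟩

/-- The family of all Hecke operators `T_ℓ` (`ℓ ∤ N`) and `U_q` (`q ∣ N`), indexed by primes. -/
def heckeOp (N : ℕ) [NeZero N] (p : {p : ℕ // p.Prime}) :
    Module.End ℂ (CuspForm (Gamma0 N) 2) :=
  if h : (p : ℕ) ∣ N then heckeULin 2 h else heckeTLin 2 p.2 h

theorem heckeOp_of_dvd [NeZero N] (p : {p : ℕ // p.Prime}) (h : (p : ℕ) ∣ N) :
    heckeOp N p = heckeULin 2 h := by
  unfold heckeOp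
  rw [dif_pos h]

theorem heckeOp_of_not_dvd [NeZero N] (p : {p : ℕ // p.Prime}) (h : ¬ (p : ℕ) ∣ N) :
    heckeOp N p = heckeTLin 2 p.2 h := by
  unfold heckeOp
  rw [dif_neg h]

theorem heckeOp_mem_heckeGenerators [NeZero N] (p : {p : ℕ // p.Prime}) :
    heckeOp N p ∈ heckeGenerators N 2 (∅ : Set ℕ) := by
  by_cases h : (p : ℕ) ∣ N
  · rw [heckeOp_of_dvd p h]
    exact heckeULin_mem_heckeGenerators p.2 h (Set.notMem_empty _)
  · rw [heckeOp_of_not_dvd p h]
    exact heckeTLin_mem_heckeGenerators p.2 h (Set.notMem_empty _)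

theorem heckeOp_commute [NeZero N] (p q : {p : ℕ // p.Prime}) :
    Commute (heckeOp N p) (heckeOp N q) :=
  commute_of_mem_heckeGenerators (heckeOp_mem_heckeGenerators p) (heckeOp_mem_heckeGenerators q)

theorem heckeOp_mem [NeZero N] (p : {p : ℕ // p.Prime}) (x : CuspForm (Gamma0 N) 2)
    (hx : x ∈ intSubmodule N) : heckeOp N p x ∈ intSubmodule N := by
  rw [← intLattice_eq] at hx ⊢
  by_cases h : (p : ℕ) ∣ N
  · rw [heckeOp_of_dvd p h]
    exact CuspForm.mem_intLattice_of_coe_eq_heckeU p.2.ne_zero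
      (CuspForm.coe_heckeULin_apply 2 h x) hx
  · rw [heckeOp_of_not_dvd p h]
    exact CuspForm.mem_intLattice_of_coe_eq_heckeT one_le_two p.2.ne_zero
      (CuspForm.coe_heckeTLin_apply 2 p.2 h x) hx

end Fermat.Agent.S49.Glue
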